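import Mathlib
import Fermat.Agent.Flat.Mult
import Fermat.Agent.Flat.Sel

/-!
Pencils of sections, in terms of functions.
-/

set_option autoImplicit false
set_option linter.unusedSectionVars false

noncomputable section

namespace Fermat.Agent.Lf

open AlgebraicCurve IsDedekindDomain IntermediateField WithZero Module Fermat.Agent.FunField
open Fermat.Agent.Flat

variable {K F : Type*} [Field K] [Field F] [Algebra K F] {g C : ℤ}

/-- A normalised discrete valuation trivial on the constants is a place. -/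
theorem exists_place_of_val (o : F → ℤ) (hmul : ∀ x y, x ≠ 0 → y ≠ 0 → o (x * y) = o x + o y)
    (hadd : ∀ x y, x ≠ 0 → y ≠ 0 → x + y ≠ 0 → min (o x) (o y) ≤ o (x + y))
    (hconst : ∀ a : K, a ≠ 0 → o (algebraMap K F a) = 0) {u : F} (hu0 : u ≠ 0) (hu : o u = 1) :
    ∃ v : Place K F, ∀ x, x ≠ 0 → v.ord x = o x := by
  classical
  have hone : o 1 = 0 := by
    have := hmul 1 1 one_ne_zero one_ne_zero
    rw [mul_one] at this
    omega
  have hinv : ∀ x, x ≠ 0 → o x⁻¹ = - o x := by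
    intro x hx
    have := hmul x x⁻¹ hx (inv_ne_zero hx)
    rw [mul_inv_cancel₀ hx, hone] at this
    omega
  have hpow : ∀ x, x ≠ 0 → ∀ n : ℕ, o (x ^ n) = n * o x := by
    intro x hx n
    induction n with
    | zero => simp [hone]
    | succ n ih =>
      rw [pow_succ, hmul _ _ (pow_ne_zero n hx) hx, ih]
      push_cast
      ring
  have hzpow : ∀ x, x ≠ 0 → ∀ n : ℤ, o (x ^ n) = n * o x := by
    intro x hx n
    obtain ⟨n, rfl | rfl⟩ := n.eq_nat_or_neg
    · rw [zpow_natCast, hpow x hx]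
    · rw [zpow_neg, zpow_natCast, hinv _ (pow_ne_zero n hx), hpow x hx]
      ring
  -- the valuation ring
  let V : ValuationSubring F :=
    { carrier := {x | x = 0 ∨ 0 ≤ o x}
      mul_mem' := by
        rintro a b (rfl | ha) (rfl | hb)
        · exact Or.inl (mul_zero _)
        · exact Or.inl (zero_mul _)
        · exact Or.inl (mul_zero _)
        · by_cases ha0 : a = 0
          · exact Or.inl (by rw [ha0, zero_mul])
          by_cases hb0 : b = 0
          · exact Or.inl (by rw [hb0, mul_zero])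
          · exact Or.inr (by rw [hmul _ _ ha0 hb0]; omega)
      one_mem' := Or.inr hone.ge
      add_mem' := by
        intro a b ha hb
        by_cases ha0 : a = 0
        · rw [ha0, zero_add]; exact hb
        by_cases hb0 : b = 0
        · rw [hb0, add_zero]; exact ha
        by_cases hab : a + b = 0
        · exact Or.inl hab
        · refine Or.inr (le_trans (le_min ?_ ?_) (hadd a b ha0 hb0 hab))
          · exact ha.resolve_left ha0
          · exact hb.resolve_left hb0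
      zero_mem' := Or.inl rfl
      neg_mem' := by
        rintro a (rfl | ha)
        · exact Or.inl neg_zero
        · by_cases ha0 : a = 0
          · exact Or.inl (by rw [ha0, neg_zero])
          · right
            have h1 : o (-1) = 0 := by
              have := hmul (-1) (-1) (neg_ne_zero.mpr one_ne_zero) (neg_ne_zero.mpr one_ne_zero)
              rw [neg_mul_neg, mul_one, hone] at this
              omega
            rw [← neg_one_mul, hmul _ _ (neg_ne_zero.mpr one_ne_zero) ha0, h1]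
            omega
      mem_or_inv_mem' := by
        intro x
        by_cases hx : x = 0
        · exact Or.inl (Or.inl hx)
        · rcases le_total 0 (o x) with h1 | h1
          · exact Or.inl (Or.inr h1)
          · exact Or.inr (Or.inr (by rw [hinv x hx]; omega)) }
  have hmem : ∀ x, x ∈ V ↔ x = 0 ∨ 0 ≤ o x := fun x => Iff.rfl
  have huV : u ∈ V := Or.inr (by rw [hu]; exact zero_le_one)
  have hunit : ∀ x : V, x ≠ 0 → o x = 0 → IsUnit x := by
    intro x hx h0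
    have hx0 : (x : F) ≠ 0 := fun h => hx (Subtype.ext h)
    have h1 : (x : F)⁻¹ ∈ V := Or.inr (by rw [hinv _ hx0, h0, neg_zero])
    exact ⟨⟨x, ⟨_, h1⟩, Subtype.ext (mul_inv_cancel₀ hx0), Subtype.ext (inv_mul_cancel₀ hx0)⟩, rfl⟩
  have hunit' : ∀ x : Vˣ, o ((x : V) : F) = 0 := by
    intro x
    have hx0 : ((x : V) : F) ≠ 0 := fun h => x.ne_zero (Subtype.ext h)
    have h1 := ((hmem _).mp (x : V).2).resolve_left hx0
    have h3 : (((x⁻¹ : Vˣ) : V) : F) = ((x : V) : F)⁻¹ := by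
      have h3 := congrArg Subtype.val (x.mul_inv)
      have h4 : ((x : V) : F) * (((x⁻¹ : Vˣ) : V) : F) = 1 := h3
      exact eq_inv_of_mul_eq_one_right h4
    have h2 := ((hmem _).mp ((x⁻¹ : Vˣ) : V).2).resolve_left (by rw [h3]; exact inv_ne_zero hx0)
    rw [h3, hinv _ hx0] at h2
    omega
  have hfac : ∀ x : V, x ≠ 0 → ∃ (n : ℕ) (w : Vˣ), (⟨u, huV⟩ : V) ^ n * w = x := by
    intro x hx
    have hx0 : (x : F) ≠ 0 := fun h => hx (Subtype.ext h)
    have h1 := ((hmem _).mp x.2).resolve_left hx0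
    have h3 : o ((x : F) * u ^ (-(o (x : F)))) = 0 := by
      rw [hmul _ _ hx0 (zpow_ne_zero _ hu0), hzpow u hu0, hu]
      ring
    have h4 : (x : F) * u ^ (-(o (x : F))) ∈ V := Or.inr h3.ge
    obtain ⟨w, hw⟩ := hunit ⟨_, h4⟩ (fun h => by
      have := congrArg Subtype.val h
      exact mul_ne_zero hx0 (zpow_ne_zero _ hu0) this) h3
    refine ⟨(o (x : F)).toNat, w, Subtype.ext ?_⟩
    rw [hw]
    change u ^ (o (x : F)).toNat * ((x : F) * u ^ (-(o (x : F)))) = x
    rw [← zpow_natCast, Int.toNat_of_nonneg h1, zpow_neg]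
    have := zpow_ne_zero (o (x : F)) hu0
    field_simp
  have hirr : Irreducible (⟨u, huV⟩ : V) := by
    refine ⟨fun h => ?_, fun x y hxy => ?_⟩
    · obtain ⟨w, hw⟩ := h
      have h1 := hunit' w
      rw [hw, hu] at h1
      omega
    have hxy' : u = (x : F) * y := congrArg Subtype.val hxy
    have hx0 : (x : F) ≠ 0 := by
      intro h
      rw [h, zero_mul] at hxy'
      exact hu0 hxy'
    have hy0 : (y : F) ≠ 0 := by
      intro h
      rw [h, mul_zero] at hxy'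
      exact hu0 hxy'
    have h1 := ((hmem _).mp x.2).resolve_left hx0
    have h2 := ((hmem _).mp y.2).resolve_left hy0
    have h3 := hmul _ _ hx0 hy0
    rw [← hxy', hu] at h3
    rcases h1.eq_or_lt with h4 | h4
    · exact Or.inl (hunit x (fun h => hx0 (congrArg Subtype.val h)) h4.symm)
    · exact Or.inr (hunit y (fun h => hy0 (congrArg Subtype.val h)) (by omega))
  have hdvr : IsDiscreteValuationRing V :=
    IsDiscreteValuationRing.ofHasUnitMulPowIrreducibleFactorization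
      ⟨_, hirr, fun {x} hx => hfac x hx⟩
  let v : Place K F :=
    { toValuationSubring := V
      algebraMap_mem' := fun a => by
        by_cases ha : a = 0
        · exact Or.inl (by rw [ha, map_zero])
        · exact Or.inr (hconst a ha).ge
      ne_top' := by
        intro htop
        have h1 : u⁻¹ ∈ V := htop ▸ ValuationSubring.mem_top _
        have h2 := ((hmem _).mp h1).resolve_left (inv_ne_zero hu0)
        rw [hinv _ hu0, hu] at h2
        omega
      isPrincipalIdealRing' := inferInstance }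
  refine ⟨v, fun f hf => ?_⟩
  obtain ⟨w, hw⟩ := v.exists_unit_mul_zpow hf (π := ⟨u, huV⟩) hirr
  have hw0 : ((w : V) : F) ≠ 0 := fun h => w.ne_zero (Subtype.ext h)
  have h1 : o f = v.ord f := by
    conv_lhs => rw [hw]
    rw [hmul _ _ hw0 (zpow_ne_zero _ hu0), hzpow u hu0, hu]
    have := hunit' w
    rw [this, zero_add, mul_one]
  rw [h1]

/-- A pencil of sections of `D + N E`, where `m D = div u`. -/
structure Pen (D E : Divisor K F) (u : F) (m N : ℕ) (f₁ f₂ : F) : Prop where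
  m0 : 0 < m
  u0 : u ≠ 0
  div : ∀ v : Place K F, v.ord u = m * D v
  dgD : dg D = 0
  ne₁ : f₁ ≠ 0
  ne₂ : f₂ ≠ 0
  mem₁ : f₁ ∈ riemannRochSpace (D + N • E)
  mem₂ : f₂ ∈ riemannRochSpace (D + N • E)
  cop : ∀ v : Place K F, v.ord f₁ = -(D + N • E) v ∨ v.ord f₂ = -(D + N • E) v

variable {D E : Divisor K F} {u : F} {m N : ℕ} {f₁ f₂ : F}

theorem Pen.symm (h : Pen D E u m N f₁ f₂) : Pen D E u m N f₂ f₁ where
  m0 := h.m0
  u0 := h.u0
  div := h.div
  dgD := h.dgD
  ne₁ := h.ne₂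
  ne₂ := h.ne₁
  mem₁ := h.mem₂
  mem₂ := h.mem₁
  cop v := (h.cop v).symm

theorem mem_of_ord {D : Divisor K F} {f : F} (h : f ≠ 0 → ∀ v : Place K F, -D v ≤ v.ord f) :
    f ∈ riemannRochSpace D := by
  by_cases hf : f = 0
  · rw [hf]; exact zero_mem _
  · exact (mem_L' hf).mpr (h hf)

theorem Pen.le₁ (h : Pen D E u m N f₁ f₂) (v : Place K F) : -(D v + N * E v) ≤ v.ord f₁ := by
  have := (mem_L' h.ne₁).mp h.mem₁ v
  rwa [Finsupp.add_apply, Finsupp.smul_apply, nsmul_eq_mul] at this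

theorem Pen.le₂ (h : Pen D E u m N f₁ f₂) (v : Place K F) : -(D v + N * E v) ≤ v.ord f₂ :=
  h.symm.le₁ v

theorem Pen.cop' (h : Pen D E u m N f₁ f₂) (v : Place K F) :
    v.ord f₁ = -(D v + N * E v) ∨ v.ord f₂ = -(D v + N * E v) := by
  have := h.cop v
  rwa [Finsupp.add_apply, Finsupp.smul_apply, nsmul_eq_mul] at this

/-- products -/
theorem Pen.prod_mem (h : Pen D E u m N f₁ f₂) {i j : ℕ} (hij : i + j = m) :
    f₁ ^ i * f₂ ^ j * u ∈ riemannRochSpace ((m * N) • E) := by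
  refine mem_of_ord fun _ v => ?_
  rw [v.ord_mul (mul_ne_zero (pow_ne_zero _ h.ne₁) (pow_ne_zero _ h.ne₂)) h.u0,
    v.ord_mul (pow_ne_zero _ h.ne₁) (pow_ne_zero _ h.ne₂), ord_pow, ord_pow, h.div,
    Finsupp.smul_apply, nsmul_eq_mul]
  have h1 := h.le₁ v
  have h2 := h.le₂ v
  have h3 : (m : ℤ) = i + j := by rw [← hij]; push_cast; ring
  have hi : (0 : ℤ) ≤ i := Int.natCast_nonneg _
  have hj : (0 : ℤ) ≤ j := Int.natCast_nonneg _
  push_cast
  rw [h3]
  nlinarith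

theorem Pen.pow_mem (h : Pen D E u m N f₁ f₂) :
    f₁ ^ m * u ∈ riemannRochSpace ((m * N) • E) := by
  have := h.prod_mem (i := m) (j := 0) (by omega)
  rwa [pow_zero, mul_one] at this

theorem Pen.ord_h (h : Pen D E u m N f₁ f₂) (v : Place K F) :
    v.ord (f₁ ^ m * u) = m * (v.ord f₁ + D v) := by
  rw [v.ord_mul (pow_ne_zero _ h.ne₁) h.u0, ord_pow, h.div]
  ring

theorem Pen.cop_h (h : Pen D E u m N f₁ f₂) (v : Place K F) :
    v.ord (f₁ ^ m * u) = -((m * N) • E) v ∨ v.ord (f₂ ^ m * u) = -((m * N) • E) v := by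
  rw [h.ord_h, h.symm.ord_h, Finsupp.smul_apply, nsmul_eq_mul]
  rcases h.cop' v with h1 | h1
  · left
    rw [h1]
    push_cast
    ring
  · right
    rw [h1]
    push_cast
    ring

/-- (COP) -/
theorem Pen.COP (h : Pen D E u m N f₁ f₂) (hC : Crv K F g C) (hE : 0 < dg E) {k : ℕ}
    (hk : m * N ≤ k) (hkC : C ≤ (k - m * N : ℕ)) {z : F}
    (hz : z ∈ riemannRochSpace ((k + m * N) • E)) :
    ∃ a ∈ riemannRochSpace (k • E), ∃ b ∈ riemannRochSpace (k • E),
      z = a * (f₁ ^ m * u) + b * (f₂ ^ m * u) := by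
  have hk' : (k : ℤ) = (k - m * N : ℕ) + (m * N : ℕ) := by
    rw [← Nat.cast_add, Nat.sub_add_cancel hk]
  have h0 : (0 : ℤ) ≤ (k - m * N : ℕ) := Int.natCast_nonneg _
  have h0' : (0 : ℤ) ≤ (m * N : ℕ) := Int.natCast_nonneg _
  rw [add_smul] at hz
  refine hC.mul_surj (D := k • E) (E := (m * N) • E) ?_ ?_ ?_ h.pow_mem h.symm.pow_mem
    (mul_ne_zero (pow_ne_zero _ h.ne₁) h.u0) (mul_ne_zero (pow_ne_zero _ h.ne₂) h.u0) h.cop_h hz
  · rw [map_nsmul, nsmul_eq_mul, hk']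
    nlinarith
  · rw [map_sub, map_nsmul, map_nsmul, nsmul_eq_mul, nsmul_eq_mul, hk']
    nlinarith
  · rw [map_add, map_nsmul, map_nsmul, nsmul_eq_mul, nsmul_eq_mul, hk']
    nlinarith

/-- (IN) -/
theorem Pen.IN (h : Pen D E u m N f₁ f₂) {e₁ e₂ : F} {s₁ s₂ : ℕ}
    (h1 : (f₁ ^ m * u) ^ s₁ * e₁ ∈ riemannRochSpace ((m * N * s₁) • E))
    (h2 : (f₂ ^ m * u) ^ s₂ * e₂ ∈ riemannRochSpace ((m * N * s₂) • E))
    (h12 : (f₁ ^ m * u) * e₁ = (f₂ ^ m * u) * e₂) :
    (f₁ ^ m * u) * e₁ ∈ riemannRochSpace ((m * N) • E) := by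
  refine mem_of_ord fun hne v => ?_
  have hh1 : f₁ ^ m * u ≠ 0 := mul_ne_zero (pow_ne_zero _ h.ne₁) h.u0
  have hh2 : f₂ ^ m * u ≠ 0 := mul_ne_zero (pow_ne_zero _ h.ne₂) h.u0
  have he1 : e₁ ≠ 0 := right_ne_zero_of_mul hne
  have he2 : e₂ ≠ 0 := by
    rw [h12] at hne
    exact right_ne_zero_of_mul hne
  rw [Finsupp.smul_apply, nsmul_eq_mul]
  rcases h.cop_h v with hv | hv
  · have h3 := (mem_L' (mul_ne_zero (pow_ne_zero _ hh1) he1)).mp h1 v
    rw [v.ord_mul (pow_ne_zero _ hh1) he1, ord_pow, hv, Finsupp.smul_apply, Finsupp.smul_apply,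
      nsmul_eq_mul, nsmul_eq_mul] at h3
    rw [v.ord_mul hh1 he1, hv, Finsupp.smul_apply, nsmul_eq_mul]
    push_cast at h3 ⊢
    nlinarith
  · have h3 := (mem_L' (mul_ne_zero (pow_ne_zero _ hh2) he2)).mp h2 v
    rw [v.ord_mul (pow_ne_zero _ hh2) he2, ord_pow, hv, Finsupp.smul_apply, Finsupp.smul_apply,
      nsmul_eq_mul, nsmul_eq_mul] at h3
    rw [h12, v.ord_mul hh2 he2, hv, Finsupp.smul_apply, nsmul_eq_mul]
    push_cast at h3 ⊢
    nlinarith

/-- (H1) -/
theorem Pen.H1 (h : Pen D E u m N f₁ f₂) (hC : Crv K F g C) (hE : 0 < dg E)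
    (hN : C ≤ N * dg E) (hN0 : 0 < N) {e : F} {s : ℕ}
    (he : ((f₁ ^ m * u) * (f₂ ^ m * u)) ^ s * e ∈ riemannRochSpace ((2 * (m * N) * s) • E)) :
    ∃ e₁ e₂ : F, f₁ * e = f₁ * e₁ + f₂ * e₂ ∧
      (f₁ ^ m * u) ^ (s + 1) * e₁ ∈ riemannRochSpace ((m * N * (s + 1)) • E) ∧
      (f₂ ^ m * u) ^ (s + 1) * e₂ ∈ riemannRochSpace ((m * N * (s + 1)) • E) := by
  have hm := h.m0
  have hh1 : f₁ ^ m * u ≠ 0 := mul_ne_zero (pow_ne_zero _ h.ne₁) h.u0
  have hh2 : f₂ ^ m * u ≠ 0 := mul_ne_zero (pow_ne_zero _ h.ne₂) h.u0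
  obtain ⟨n, hn⟩ : ∃ n, m * (s + 1) = n + 1 := ⟨m * (s + 1) - 1, by
    have : 0 < m * (s + 1) := Nat.mul_pos hm (Nat.succ_pos s)
    omega⟩
  set Δ : Divisor K F := (m * N * (s + 1)) • E - (m * (s + 1)) • D with hΔ
  have hn' : (m : ℤ) * (s + 1) = n + 1 := by exact_mod_cast hn
  have hn0 : (0 : ℤ) ≤ n := Int.natCast_nonneg _
  have hNE : 0 ≤ (N : ℤ) * dg E := by positivity
  have hdΔ : dg Δ = (n + 1) * (N * dg E) := by
    rw [hΔ, map_sub, map_nsmul, map_nsmul, h.dgD, nsmul_eq_mul, smul_zero, sub_zero]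
    push_cast
    linear_combination (N : ℤ) * dg E * hn'
  have hdG : dg (n • (D + N • E)) = n * (N * dg E) := by
    rw [map_nsmul, map_add, map_nsmul, h.dgD, zero_add, nsmul_eq_mul, nsmul_eq_mul]
  -- the element to be decomposed
  have hZ : f₁ ^ m * f₂ ^ (m - 1) * u ^ 2 * (((f₁ ^ m * u) * (f₂ ^ m * u)) ^ s * e) ∈
      riemannRochSpace (Δ + n • (D + N • E)) := by
    refine mem_of_ord fun hne v => ?_
    have hg0 : ((f₁ ^ m * u) * (f₂ ^ m * u)) ^ s * e ≠ 0 := right_ne_zero_of_mul hne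
    rw [v.ord_mul (left_ne_zero_of_mul hne) hg0,
      v.ord_mul (mul_ne_zero (pow_ne_zero _ h.ne₁) (pow_ne_zero _ h.ne₂)) (pow_ne_zero _ h.u0),
      v.ord_mul (pow_ne_zero _ h.ne₁) (pow_ne_zero _ h.ne₂), ord_pow, ord_pow, ord_pow, h.div]
    have h3 := (mem_L' hg0).mp he v
    have h1 := h.le₁ v
    have h2 := h.le₂ v
    rw [hΔ]
    simp only [Finsupp.add_apply, Finsupp.sub_apply, Finsupp.smul_apply, nsmul_eq_mul] at h3 ⊢
    have hm1 : ((m - 1 : ℕ) : ℤ) = m - 1 := by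
      rw [Nat.cast_sub hm]; rfl
    have hm1' : (0 : ℤ) ≤ m - 1 := by
      have : (1 : ℤ) ≤ m := by exact_mod_cast hm
      omega
    rw [hm1]
    push_cast at h3 ⊢
    have hnn : (n : ℤ) = m * (s + 1) - 1 := by omega
    rw [hnn]
    nlinarith
  obtain ⟨a, ha, b, hb, hab⟩ := hC.mul_surj (D := Δ) (E := n • (D + N • E))
    (by rw [hdΔ]; nlinarith) (by rw [map_sub, hdΔ, hdG]; nlinarith)
    (by rw [map_add, hdΔ, hdG]; nlinarith) (pow_mem_L h.mem₁ n) (pow_mem_L h.mem₂ n)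
    (pow_ne_zero _ h.ne₁) (pow_ne_zero _ h.ne₂) (fun v => by
      rw [ord_pow, ord_pow, Finsupp.smul_apply, nsmul_eq_mul]
      rcases h.cop v with hv | hv
      · left; rw [hv]; ring
      · right; rw [hv]; ring) hZ
  have hu' : ∀ k : ℕ, u ^ k ≠ 0 := fun k => pow_ne_zero _ h.u0
  have hL : ∀ a ∈ riemannRochSpace Δ, a / u ^ (s + 1) ∈
      riemannRochSpace ((m * N * (s + 1)) • E) := by
    intro a ha
    refine mem_of_ord fun hne v => ?_
    have ha0 : a ≠ 0 := by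
      rintro rfl
      rw [zero_div] at hne
      exact hne rfl
    have h3 := (mem_L' ha0).mp ha v
    rw [div_eq_mul_inv, v.ord_mul ha0 (inv_ne_zero (hu' _)), v.ord_inv, ord_pow, h.div]
    rw [hΔ] at h3
    simp only [Finsupp.sub_apply, Finsupp.smul_apply, nsmul_eq_mul] at h3 ⊢
    push_cast at h3 ⊢
    linarith [mul_assoc (m : ℤ) (s + 1) (D v), mul_left_comm ((s : ℤ) + 1) (m : ℤ) (D v)]
  refine ⟨b / (u ^ (s + 1) * (f₁ ^ m * u) ^ (s + 1)), a / (u ^ (s + 1) * (f₂ ^ m * u) ^ (s + 1)),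
    ?_, ?_, ?_⟩
  · have e1 : (f₁ ^ m * u) ^ (s + 1) = f₁ ^ n * f₁ * u ^ (s + 1) := by
      rw [mul_pow, ← pow_mul, hn, pow_succ]
    have e2 : (f₂ ^ m * u) ^ (s + 1) = f₂ ^ n * f₂ * u ^ (s + 1) := by
      rw [mul_pow, ← pow_mul, hn, pow_succ]
    have e3 : f₁ ^ m * f₂ ^ (m - 1) * u ^ 2 * (((f₁ ^ m * u) * (f₂ ^ m * u)) ^ s * e) =
        f₁ * e * (u ^ (s + 1) * u ^ (s + 1) * (f₁ ^ n * f₂ ^ n)) := by
      have hf2 : f₂ ^ m = f₂ ^ (m - 1) * f₂ := by
        rw [← pow_succ]; congr 1; omega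
      have h5 : f₂ * (f₁ ^ m * f₂ ^ (m - 1) * u ^ 2 * (((f₁ ^ m * u) * (f₂ ^ m * u)) ^ s * e)) =
          (f₁ ^ m * u) ^ (s + 1) * (f₂ ^ m * u) ^ (s + 1) * e := by
        rw [pow_succ (f₁ ^ m * u), pow_succ (f₂ ^ m * u), mul_pow]
        rw [hf2]
        ring
      apply mul_left_cancel₀ h.ne₂
      rw [h5, e1, e2]
      ring
    rw [e1, e2]
    have hf1 := pow_ne_zero n h.ne₁
    have hf2 := pow_ne_zero n h.ne₂
    have h1' := h.ne₁
    have h2' := h.ne₂
    have hus := hu' (s + 1)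
    have h6 : f₁ * e = (a * f₁ ^ n + b * f₂ ^ n) / (u ^ (s + 1) * u ^ (s + 1) *
        (f₁ ^ n * f₂ ^ n)) := by
      rw [eq_div_iff (mul_ne_zero (mul_ne_zero hus hus) (mul_ne_zero hf1 hf2)), ← hab, e3]
    rw [h6]
    field_simp
    ring
  · have : (f₁ ^ m * u) ^ (s + 1) * (b / (u ^ (s + 1) * (f₁ ^ m * u) ^ (s + 1))) =
        b / u ^ (s + 1) := by
      have := pow_ne_zero (s + 1) hh1
      have := hu' (s + 1)
      field_simp
    rw [this]
    exact hL b hb
  · have : (f₂ ^ m * u) ^ (s + 1) * (a / (u ^ (s + 1) * (f₂ ^ m * u) ^ (s + 1))) =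
        a / u ^ (s + 1) := by
      have := pow_ne_zero (s + 1) hh2
      have := hu' (s + 1)
      field_simp
    rw [this]
    exact hL a ha

/-- Existence of pencils, generating at a given place. -/
theorem exists_pen [Infinite K] (hC : Crv K F g C) (E : Divisor K F) {u : F} (hu0 : u ≠ 0) {m : ℕ}
    (hm : 0 < m) (hdvd : ∀ v : Place K F, (m : ℤ) ∣ v.ord u) (v₀ : Place K F) {N : ℕ}
    (hN : C + 1 ≤ N * dg E) : ∃ (D : Divisor K F) (f₁ f₂ : F), Pen D E u m N f₁ f₂ ∧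
      v₀.ord f₁ = -(D v₀ + N * E v₀) ∧ v₀.ord f₂ = -(D v₀ + N * E v₀) := by
  classical
  have hm' : (m : ℤ) ≠ 0 := by exact_mod_cast hm.ne'
  let D : Divisor K F := Finsupp.mapRange (fun n : ℤ => n / m) (Int.zero_ediv _) (dv u)
  have hD : ∀ v, v.ord u = m * D v := by
    intro v
    rw [Finsupp.mapRange_apply, dv_apply (hC.fin u), Int.mul_ediv_cancel' (hdvd v)]
  have hdg : dg D = 0 := by
    have h1 : m • D = dv u := by
      ext v
      rw [Finsupp.smul_apply, nsmul_eq_mul, ← hD, dv_apply (hC.fin u)]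
    have h2 := congrArg dg h1
    rw [map_nsmul, hC.deg0 u hu0, nsmul_eq_mul] at h2
    exact (mul_eq_zero.mp h2).resolve_left hm'
  have hG : C + 1 ≤ dg (D + N • E) := by
    rw [map_add, hdg, zero_add, map_nsmul, nsmul_eq_mul]
    exact hN
  obtain ⟨f₁, h1, h10, hv1⟩ := hC.exists_section hG {v₀} ⟨v₀, Finset.mem_singleton_self _⟩
  have hfin : {v : Place K F | v.ord f₁ ≠ - (D + N • E) v}.Finite := by
    refine ((hC.fin f₁).union (D + N • E).support.finite_toSet).subset fun v hv => ?_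
    by_contra hcon
    rw [Set.mem_union, not_or] at hcon
    obtain ⟨ha, hb⟩ := hcon
    rw [Set.mem_ofPred_eq, not_not] at ha
    rw [Finset.mem_coe, Finsupp.notMem_support_iff] at hb
    exact hv (by rw [ha, hb]; rfl)
  obtain ⟨f₂, h2, h20, hz⟩ := hC.exists_section hG (insert v₀ hfin.toFinset)
    ⟨v₀, Finset.mem_insert_self _ _⟩
  refine ⟨D, f₁, f₂, ⟨hm, hu0, hD, hdg, h10, h20, h1, h2, fun v => ?_⟩, ?_, ?_⟩
  · by_cases hv : v.ord f₁ = - (D + N • E) v
    · exact Or.inl hv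
    · right
      exact hz v (Finset.mem_insert_of_mem (by rw [Set.Finite.mem_toFinset]; exact hv))
  · have := hv1 v₀ (Finset.mem_singleton_self _)
    rwa [Finsupp.add_apply, Finsupp.smul_apply, nsmul_eq_mul] at this
  · have := hz v₀ (Finset.mem_insert_self _ _)
    rwa [Finsupp.add_apply, Finsupp.smul_apply, nsmul_eq_mul] at this

end Fermat.Agent.Lf
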