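import Mathlib
import Fermat.Agent.Lf.Pencil
import Fermat.Prelude.Def_ModularCurve_X0
import Fermat.Agent.Flat.Conc3

/-!
Pencils of sections, in terms of power series.
-/

set_option autoImplicit false
set_option linter.unusedSectionVars false

noncomputable section

namespace Fermat.Agent.Lf

open AlgebraicCurve IsDedekindDomain IntermediateField WithZero Module Fermat.Agent.FunField
open Fermat.Agent.Flat

/-- The data modulo the uniformizer. -/
structure PenB {k : Type*} [Field k] (Lb : ℕ → Submodule k (PowerSeries k)) (m d k₀ : ℕ)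
    (mb₁ mb₂ : PowerSeries k) : Prop where
  u₁ : IsUnit mb₁
  u₂ : IsUnit mb₂
  prod : ∀ i j, i + j = m → mb₁ ^ i * mb₂ ^ j ∈ Lb d
  cop : ∀ n, k₀ ≤ n → ∀ z ∈ Lb (n + d), ∃ a ∈ Lb n, ∃ b ∈ Lb n, z = a * mb₁ ^ m + b * mb₂ ^ m
  IN : ∀ e₁ e₂ : PowerSeries k, ∀ s₁ s₂, (mb₁ ^ m) ^ s₁ * e₁ ∈ Lb (d * s₁) →
    (mb₂ ^ m) ^ s₂ * e₂ ∈ Lb (d * s₂) → mb₁ ^ m * e₁ = mb₂ ^ m * e₂ → mb₁ ^ m * e₁ ∈ Lb d
  H1 : ∀ (e : PowerSeries k) (s : ℕ), (mb₁ ^ m * mb₂ ^ m) ^ s * e ∈ Lb (2 * d * s) →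
    ∃ (e₁ e₂ : PowerSeries k) (s' : ℕ), mb₁ * e = mb₁ * e₁ + mb₂ * e₂ ∧
      (mb₁ ^ m) ^ s' * e₁ ∈ Lb (d * s') ∧ (mb₂ ^ m) ^ s' * e₂ ∈ Lb (d * s')

variable {κ : Type*} [Field κ]

variable (κ) in
/-- the variable -/
def xs : LaurentSeries κ := HahnSeries.ofPowerSeries ℤ κ PowerSeries.X

theorem xs_ne : xs κ ≠ 0 := by
  intro h
  have : (PowerSeries.X : PowerSeries κ) = 0 :=
    HahnSeries.ofPowerSeries_injective (Γ := ℤ) (by rw [map_zero]; exact h)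
  exact PowerSeries.X_ne_zero this

theorem xs_eq : xs κ = HahnSeries.single (1 : ℤ) (1 : κ) := HahnSeries.ofPowerSeries_X

theorem order_xs : (xs κ).order = 1 := by
  rw [xs_eq, HahnSeries.order_single one_ne_zero]

theorem order_xs_pow (n : ℕ) : (xs κ ^ n).order = n := by
  rw [HahnSeries.order_pow, order_xs]
  simp

theorem exists_ps {y : LaurentSeries κ} (h : y ≠ 0 → 0 ≤ y.order) :
    ∃ f : PowerSeries κ, y = HahnSeries.ofPowerSeries ℤ κ f := by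
  refine ⟨PowerSeries.mk fun n => y.coeff n, ?_⟩
  ext n
  by_cases hy : y = 0
  · subst hy
    simp only [HahnSeries.coeff_zero]
    have : (PowerSeries.mk fun _ : ℕ => (0 : κ)) = 0 := by ext; simp
    rw [this, map_zero, HahnSeries.coeff_zero]
  rcases lt_or_ge n 0 with hn | hn
  · rw [ModularCurve.ofPowerSeries_coeff_of_neg _ hn]
    exact HahnSeries.coeff_eq_zero_of_lt_order (hn.trans_le (h hy))
  · lift n to ℕ using hn
    rw [HahnSeries.ofPowerSeries_apply_coeff, PowerSeries.coeff_mk]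

theorem order_ofPowerSeries_nonneg (f : PowerSeries κ) :
    0 ≤ (HahnSeries.ofPowerSeries ℤ κ f).order := by
  by_cases hf : HahnSeries.ofPowerSeries ℤ κ f = 0
  · rw [hf, HahnSeries.order_zero]
  by_contra hcon
  push Not at hcon
  exact hf (HahnSeries.coeff_order_eq_zero.mp (ModularCurve.ofPowerSeries_coeff_of_neg _ hcon))

theorem isUnit_of_order {f : PowerSeries κ} (hf : f ≠ 0)
    (h : (HahnSeries.ofPowerSeries ℤ κ f).order = 0) : IsUnit f := by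
  rw [PowerSeries.isUnit_iff_constantCoeff, isUnit_iff_ne_zero]
  have h0 : HahnSeries.ofPowerSeries ℤ κ f ≠ 0 := fun h => hf
    (HahnSeries.ofPowerSeries_injective (by rw [h, map_zero]))
  have h1 := fun h' => h0 (HahnSeries.coeff_order_eq_zero.mp h')
  rw [h] at h1
  have h2 := HahnSeries.ofPowerSeries_apply_coeff (Γ := ℤ) f 0
  rw [Nat.cast_zero] at h2
  rw [h2, PowerSeries.coeff_zero_eq_constantCoeff] at h1
  exact h1

variable {Fb : IntermediateField κ (LaurentSeries κ)}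

/-- Sections as power series. -/
def Lv (E : Divisor κ Fb) (c i : ℕ) : Submodule κ (PowerSeries κ) where
  carrier := {f | ∃ z : Fb, z ∈ riemannRochSpace (i • E) ∧
    (z : LaurentSeries κ) * xs κ ^ (c * i) = HahnSeries.ofPowerSeries ℤ κ f}
  zero_mem' := ⟨0, zero_mem _, by
    rw [map_zero]
    change (0 : LaurentSeries κ) * _ = 0
    rw [zero_mul]⟩
  add_mem' := by
    rintro f f' ⟨z, hz, h⟩ ⟨z', hz', h'⟩
    refine ⟨z + z', add_mem hz hz', ?_⟩
    rw [map_add, ← h, ← h']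
    change ((z : LaurentSeries κ) + z') * _ = _
    rw [add_mul]
  smul_mem' := by
    rintro a f ⟨z, hz, h⟩
    refine ⟨a • z, Submodule.smul_mem _ a hz, ?_⟩
    rw [IntermediateField.coe_smul, Algebra.smul_def, algebraMap_laurent, mul_assoc, h,
      PowerSeries.smul_eq_C_mul, map_mul, HahnSeries.ofPowerSeries_C]

theorem mem_Lv {E : Divisor κ Fb} {c i : ℕ} {f : PowerSeries κ} : f ∈ Lv E c i ↔
    ∃ z : Fb, z ∈ riemannRochSpace (i • E) ∧
      (z : LaurentSeries κ) * xs κ ^ (c * i) = HahnSeries.ofPowerSeries ℤ κ f := Iff.rfl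

theorem exists_mem_Lv {E : Divisor κ Fb} {c : ℕ} {v₀ : Place κ Fb}
    (hv₀ : ∀ z : Fb, z ≠ 0 → v₀.ord z = (z : LaurentSeries κ).order) (hE : E v₀ = c) {i : ℕ}
    {z : Fb} (hz : z ∈ riemannRochSpace (i • E)) :
    ∃ f ∈ Lv E c i, (z : LaurentSeries κ) * xs κ ^ (c * i) = HahnSeries.ofPowerSeries ℤ κ f := by
  obtain ⟨f, hf⟩ := exists_ps (y := (z : LaurentSeries κ) * xs κ ^ (c * i)) fun hne => by
    have hz0' : (z : LaurentSeries κ) ≠ 0 := left_ne_zero_of_mul hne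
    have hz0 : z ≠ 0 := fun h => hz0' (by rw [h]; rfl)
    rw [HahnSeries.order_mul hz0' (pow_ne_zero _ xs_ne), order_xs_pow, ← hv₀ z hz0]
    have := (mem_L' hz0).mp hz v₀
    rw [Finsupp.smul_apply, nsmul_eq_mul, hE] at this
    push_cast
    linarith [mul_comm (i : ℤ) c]
  exact ⟨f, ⟨z, hz, hf⟩, hf⟩

theorem coe_mul' (a b : Fb) : ((a * b : Fb) : LaurentSeries κ) = a * b := rfl
theorem coe_add' (a b : Fb) : ((a + b : Fb) : LaurentSeries κ) = a + b := rfl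
theorem coe_pow' (a : Fb) (n : ℕ) : ((a ^ n : Fb) : LaurentSeries κ) = (a : LaurentSeries κ) ^ n :=
  rfl
theorem coe_inj' {a b : Fb} (h : (a : LaurentSeries κ) = b) : a = b := Subtype.ext h


section Main

variable [Infinite κ] {g C : ℤ}

/-- **The geometry modulo the uniformizer.** -/
theorem exists_penB (hC : Crv κ Fb g C) {E : Divisor κ Fb} (hE0 : 0 < dg E) {c : ℕ}
    {v₀ : Place κ Fb} (hv₀ : ∀ z : Fb, z ≠ 0 → v₀.ord z = (z : LaurentSeries κ).order)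
    (hEv : E v₀ = c) {m : ℕ} (hm : 0 < m) {yb : LaurentSeries κ} (hy0 : yb ≠ 0)
    (hy : yb ^ m ∈ Fb) (hdvd : ∀ v : Place κ Fb, (m : ℤ) ∣ v.ord (⟨yb ^ m, hy⟩ : Fb)) {N : ℕ}
    (hN0 : 0 < N) (hN : C + 1 ≤ N) :
    ∃ (f₁ f₂ : Fb) (mb₁ mb₂ : PowerSeries κ), f₁ ≠ 0 ∧ f₂ ≠ 0 ∧
      f₁ * yb * xs κ ^ (c * N) = HahnSeries.ofPowerSeries ℤ κ mb₁ ∧
      f₂ * yb * xs κ ^ (c * N) = HahnSeries.ofPowerSeries ℤ κ mb₂ ∧
      PenB (Lv E c) m (m * N) (m * N + C.toNat) mb₁ mb₂ := by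
  have hN' : C + 1 ≤ N * dg E := by
    have : (0 : ℤ) ≤ N := Int.natCast_nonneg _
    nlinarith
  have hu0 : (⟨yb ^ m, hy⟩ : Fb) ≠ 0 := fun h => pow_ne_zero m hy0 (congrArg Subtype.val h)
  obtain ⟨D, f₁, f₂, hP, hf1, hf2⟩ := exists_pen hC E hu0 hm hdvd v₀ hN'
  set u : Fb := ⟨yb ^ m, hy⟩ with hu
  have huc : (u : LaurentSeries κ) = yb ^ m := rfl
  -- orders
  have hyD : (m : ℤ) * yb.order = m * D v₀ := by
    rw [← hP.div, hv₀ u hu0, huc, HahnSeries.order_pow]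
    simp
  have hm' : (m : ℤ) ≠ 0 := by exact_mod_cast hm.ne'
  have hyD' : yb.order = D v₀ := mul_left_cancel₀ hm' hyD
  have hxN : xs κ ^ (c * N) ≠ 0 := pow_ne_zero _ xs_ne
  have key : ∀ f : Fb, f ≠ 0 → v₀.ord f = -(D v₀ + N * E v₀) → ∃ mb : PowerSeries κ, IsUnit mb ∧
      f * yb * xs κ ^ (c * N) = HahnSeries.ofPowerSeries ℤ κ mb := by
    intro f hf0 hf
    have hf0' : (f : LaurentSeries κ) ≠ 0 := fun h => hf0 (Subtype.ext h)
    have ho : ((f : LaurentSeries κ) * yb * xs κ ^ (c * N)).order = 0 := by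
      rw [HahnSeries.order_mul (mul_ne_zero hf0' hy0) hxN, HahnSeries.order_mul hf0' hy0,
        order_xs_pow, ← hv₀ f hf0, hf, hyD', hEv]
      push_cast
      ring
    obtain ⟨mb, hmb⟩ := exists_ps (y := (f : LaurentSeries κ) * yb * xs κ ^ (c * N))
      fun _ => ho.ge
    refine ⟨mb, isUnit_of_order ?_ (by rw [← hmb, ho]), hmb⟩
    rintro rfl
    rw [map_zero] at hmb
    exact mul_ne_zero (mul_ne_zero hf0' hy0) hxN hmb
  obtain ⟨mb₁, hmu1, hmb1⟩ := key f₁ hP.ne₁ hf1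
  obtain ⟨mb₂, hmu2, hmb2⟩ := key f₂ hP.ne₂ hf2
  -- the powers
  have hab1 : ((f₁ ^ m * u : Fb) : LaurentSeries κ) * xs κ ^ (c * (m * N)) =
      HahnSeries.ofPowerSeries ℤ κ (mb₁ ^ m) := by
    rw [map_pow, ← hmb1, coe_mul', coe_pow', huc]
    ring
  have hab2 : ((f₂ ^ m * u : Fb) : LaurentSeries κ) * xs κ ^ (c * (m * N)) =
      HahnSeries.ofPowerSeries ℤ κ (mb₂ ^ m) := by
    rw [map_pow, ← hmb2, coe_mul', coe_pow', huc]
    ring
  have hh1 : f₁ ^ m * u ≠ 0 := mul_ne_zero (pow_ne_zero _ hP.ne₁) hP.u0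
  have hh2 : f₂ ^ m * u ≠ 0 := mul_ne_zero (pow_ne_zero _ hP.ne₂) hP.u0
  have hx : ∀ n : ℕ, xs κ ^ n ≠ 0 := fun n => pow_ne_zero _ xs_ne
  -- from power series to functions
  have back : ∀ (h : Fb) (w : PowerSeries κ) (hh : h ≠ 0)
      (hw : (h : LaurentSeries κ) * xs κ ^ (c * (m * N)) = HahnSeries.ofPowerSeries ℤ κ w)
      (e : PowerSeries κ) (s : ℕ), w ^ s * e ∈ Lv E c (m * N * s) →
      ∃ eF : Fb, (eF : LaurentSeries κ) = HahnSeries.ofPowerSeries ℤ κ e ∧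
        h ^ s * eF ∈ riemannRochSpace ((m * N * s) • E) := by
    intro h w hh hw e s hmem
    obtain ⟨z, hz, hze⟩ := hmem
    refine ⟨z / h ^ s, ?_, by rwa [mul_div_cancel₀ _ (pow_ne_zero _ hh)]⟩
    have hh' : (h : LaurentSeries κ) ≠ 0 := fun h' => hh (Subtype.ext h')
    change (z : LaurentSeries κ) / (h : LaurentSeries κ) ^ s = _
    rw [div_eq_iff (pow_ne_zero _ hh')]
    apply mul_right_cancel₀ (hx (c * (m * N * s)))
    rw [hze, map_mul, map_pow, ← hw]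
    ring
  -- from functions to power series
  have forth : ∀ (h : Fb) (w : PowerSeries κ) (hwu : IsUnit w)
      (hw : (h : LaurentSeries κ) * xs κ ^ (c * (m * N)) = HahnSeries.ofPowerSeries ℤ κ w)
      (eF : Fb) (s : ℕ), h ^ s * eF ∈ riemannRochSpace ((m * N * s) • E) →
      ∃ e : PowerSeries κ, (eF : LaurentSeries κ) = HahnSeries.ofPowerSeries ℤ κ e ∧
        w ^ s * e ∈ Lv E c (m * N * s) := by
    intro h w hwu hw eF s hmem
    obtain ⟨f, hf, hfe⟩ := exists_mem_Lv hv₀ hEv hmem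
    obtain ⟨w', hw'⟩ := hwu
    refine ⟨((w'⁻¹ : (PowerSeries κ)ˣ) : PowerSeries κ) ^ s * f, ?_, ?_⟩
    · have hne : HahnSeries.ofPowerSeries ℤ κ (w ^ s) ≠ 0 := by
        intro h0
        have : w ^ s = 0 := HahnSeries.ofPowerSeries_injective (by rw [h0, map_zero])
        rw [← hw'] at this
        exact (w' ^ s).ne_zero (by push_cast; exact this)
      apply mul_left_cancel₀ hne
      rw [← map_mul, ← mul_assoc, ← mul_pow, ← hw', Units.mul_inv, one_pow, one_mul, ← hfe,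
        map_pow, hw', ← hw, coe_mul', coe_pow']
      ring
    · rw [← mul_assoc, ← mul_pow, ← hw', Units.mul_inv, one_pow, one_mul]
      exact hf
  refine ⟨f₁, f₂, mb₁, mb₂, hP.ne₁, hP.ne₂, hmb1, hmb2, hmu1, hmu2, ?_, ?_, ?_, ?_⟩
  · -- products
    intro i j hij
    refine ⟨_, hP.prod_mem hij, ?_⟩
    rw [map_mul, map_pow, map_pow, ← hmb1, ← hmb2, coe_mul', coe_mul', coe_pow', coe_pow', huc,
      ← hij]
    ring
  · -- COP
    rintro n hn z ⟨zF, hz, hze⟩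
    have h3 : C ≤ (n - m * N : ℕ) := by
      have h4 := Int.self_le_toNat C
      have h5 : C.toNat ≤ n - m * N := by omega
      exact h4.trans (by exact_mod_cast h5)
    obtain ⟨a, ha, b, hb, hab⟩ := hP.COP hC hE0 (k := n) (by omega) h3 hz
    obtain ⟨a', ha', hae⟩ := exists_mem_Lv hv₀ hEv ha
    obtain ⟨b', hb', hbe⟩ := exists_mem_Lv hv₀ hEv hb
    refine ⟨a', ha', b', hb', HahnSeries.ofPowerSeries_injective (Γ := ℤ) ?_⟩
    rw [← hze, hab, map_add, map_mul, map_mul, ← hab1, ← hab2, ← hae, ← hbe, coe_add', coe_mul',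
      coe_mul' b]
    ring
  · -- IN
    intro e₁ e₂ s₁ s₂ h1 h2 h12
    obtain ⟨F₁, hF1, hF1'⟩ := back _ _ hh1 hab1 e₁ s₁ h1
    obtain ⟨F₂, hF2, hF2'⟩ := back _ _ hh2 hab2 e₂ s₂ h2
    have h3 : f₁ ^ m * u * F₁ = f₂ ^ m * u * F₂ := by
      apply coe_inj'
      apply mul_right_cancel₀ (hx (c * (m * N)))
      have h4 := congrArg (HahnSeries.ofPowerSeries ℤ κ) h12
      rw [map_mul, map_mul, ← hab1, ← hab2, ← hF1, ← hF2] at h4
      rw [coe_mul', coe_mul' (f₂ ^ m * u)]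
      linear_combination h4
    refine ⟨_, hP.IN hF1' hF2' h3, ?_⟩
    rw [map_mul, ← hab1, ← hF1, coe_mul']
    ring
  · -- H1
    intro e s hes
    obtain ⟨z, hz, hze⟩ := hes
    have hab12 : ((f₁ ^ m * u * (f₂ ^ m * u) : Fb) : LaurentSeries κ) *
        xs κ ^ (c * (2 * (m * N))) = HahnSeries.ofPowerSeries ℤ κ (mb₁ ^ m * mb₂ ^ m) := by
      rw [map_mul, ← hab1, ← hab2, coe_mul']
      ring
    have hh12 : f₁ ^ m * u * (f₂ ^ m * u) ≠ 0 := mul_ne_zero hh1 hh2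
    set eF : Fb := z / (f₁ ^ m * u * (f₂ ^ m * u)) ^ s with heF
    have hh12' : ((f₁ ^ m * u * (f₂ ^ m * u) : Fb) : LaurentSeries κ) ≠ 0 :=
      fun h' => hh12 (Subtype.ext h')
    have heF1 : (eF : LaurentSeries κ) = HahnSeries.ofPowerSeries ℤ κ e := by
      change (z : LaurentSeries κ) / ((f₁ ^ m * u * (f₂ ^ m * u) : Fb) : LaurentSeries κ) ^ s = _
      rw [div_eq_iff (pow_ne_zero _ hh12')]
      apply mul_right_cancel₀ (hx (c * (2 * (m * N) * s)))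
      rw [hze, map_mul, map_pow, ← hab12]
      ring
    have heF2 : ((f₁ ^ m * u) * (f₂ ^ m * u)) ^ s * eF ∈
        riemannRochSpace ((2 * (m * N) * s) • E) := by
      rw [heF, mul_div_cancel₀ _ (pow_ne_zero _ hh12)]
      exact hz
    obtain ⟨E₁, E₂, hE12, hE1, hE2⟩ := hP.H1 hC hE0 (by omega) hN0 heF2
    obtain ⟨e₁, he1, he1'⟩ := forth _ _ (hmu1.pow m) hab1 E₁ (s + 1) hE1
    obtain ⟨e₂, he2, he2'⟩ := forth _ _ (hmu2.pow m) hab2 E₂ (s + 1) hE2
    refine ⟨e₁, e₂, s + 1, HahnSeries.ofPowerSeries_injective (Γ := ℤ) ?_, he1', he2'⟩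
    have h5 := congrArg (fun z : Fb => (z : LaurentSeries κ)) hE12
    simp only [coe_add', coe_mul'] at h5
    rw [map_add, map_mul, map_mul, map_mul, ← hmb1, ← hmb2, ← heF1, ← he1, ← he2]
    linear_combination yb * xs κ ^ (c * N) * h5

end Main

end Fermat.Agent.Lf
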