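import Mathlib
import Fermat.Agent.LG.LiftA2

/-!
Lattices of power series over a discrete valuation ring and their completions.
-/

set_option autoImplicit false
set_option linter.unusedSectionVars false

noncomputable section

namespace Fermat.Agent.Lf

open Fermat.Agent.LG

variable {O₀ O k : Type} [CommRing O₀] [IsDomain O₀] [IsPrincipalIdealRing O₀] [CommRing O]
  [Field k]

/-- A completion with its residue field. -/
structure Cpl (π : O₀) (inc : O₀ →+* O) (r₀ : O₀ →+* k) (r : O →+* k) : Prop where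
  red_inc : ∀ a, r (inc a) = r₀ a
  surj₀ : Function.Surjective r₀
  ker₀ : ∀ a, r₀ a = 0 ↔ π ∣ a
  ker : ∀ x, r x = 0 ↔ inc π ∣ x
  nzd : ∀ x, inc π * x = 0 → x = 0
  ne : π ≠ 0

variable {π : O₀} {inc : O₀ →+* O} {r₀ : O₀ →+* k} {r : O →+* k}

theorem C_dvd_iff {R : Type*} [CommRing R] {a : R} {f : PowerSeries R} :
    PowerSeries.C a ∣ f ↔ ∀ n, a ∣ PowerSeries.coeff n f := by
  constructor
  · rintro ⟨g, rfl⟩ n
    exact ⟨PowerSeries.coeff n g, PowerSeries.coeff_C_mul _ _ _⟩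
  · intro h
    choose g hg using h
    exact ⟨PowerSeries.mk g, by
      ext n
      rw [PowerSeries.coeff_C_mul, PowerSeries.coeff_mk, hg]⟩

theorem Cpl.map_eq_zero (H : Cpl π inc r₀ r) (f : PowerSeries O) :
    PowerSeries.map r f = 0 ↔ PowerSeries.C (inc π) ∣ f := by
  rw [C_dvd_iff]
  constructor
  · intro h n
    rw [← H.ker, ← PowerSeries.coeff_map, h, map_zero]
  · intro h
    ext n
    rw [PowerSeries.coeff_map, (H.ker _).mpr (h n), map_zero]

theorem Cpl.map_eq_zero₀ (H : Cpl π inc r₀ r) (f : PowerSeries O₀) :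
    PowerSeries.map r₀ f = 0 ↔ PowerSeries.C π ∣ f := by
  rw [C_dvd_iff]
  constructor
  · intro h n
    rw [← H.ker₀, ← PowerSeries.coeff_map, h, map_zero]
  · intro h
    ext n
    rw [PowerSeries.coeff_map, (H.ker₀ _).mpr (h n), map_zero]

theorem Cpl.nzd' (H : Cpl π inc r₀ r) (f : PowerSeries O) (h : PowerSeries.C (inc π) * f = 0) :
    f = 0 := by
  ext n
  rw [map_zero]
  apply H.nzd
  rw [← PowerSeries.coeff_C_mul, h, map_zero]

theorem Cpl.map_inc (H : Cpl π inc r₀ r) (f : PowerSeries O₀) :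
    PowerSeries.map r (PowerSeries.map inc f) = PowerSeries.map r₀ f := by
  ext n
  rw [PowerSeries.coeff_map, PowerSeries.coeff_map, PowerSeries.coeff_map, H.red_inc]

variable (inc) in
/-- Extension of a lattice. -/
def ext (Λ : Submodule O₀ (PowerSeries O₀)) : Submodule O (PowerSeries O) :=
  Submodule.span O (PowerSeries.map inc '' Λ)

theorem ext_mul {Λ Λ' Λ'' : Submodule O₀ (PowerSeries O₀)}
    (h : ∀ f ∈ Λ, ∀ g ∈ Λ', f * g ∈ Λ'') {f g : PowerSeries O} (hf : f ∈ ext inc Λ)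
    (hg : g ∈ ext inc Λ') : f * g ∈ ext inc Λ'' := by
  have h1 : f * g ∈ ext inc Λ * ext inc Λ' := Submodule.mul_mem_mul hf hg
  rw [ext, ext, Submodule.span_mul_span] at h1
  refine Submodule.span_mono ?_ h1
  rintro _ ⟨_, ⟨f, hf, rfl⟩, _, ⟨g, hg, rfl⟩, rfl⟩
  exact ⟨f * g, h f hf g hg, map_mul _ _ _⟩

/-- A basis with independent reductions. -/
theorem Cpl.exists_basis (H : Cpl π inc r₀ r) {Λ : Submodule O₀ (PowerSeries O₀)} (hfg : Λ.FG)
    (hsat : ∀ f, PowerSeries.C π * f ∈ Λ → f ∈ Λ) :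
    ∃ (n : ℕ) (b : Fin n → PowerSeries O₀), (∀ i, b i ∈ Λ) ∧
      (∀ f ∈ Λ, ∃ c : Fin n → O₀, f = ∑ i, c i • b i) ∧
      (∀ c : Fin n → k, ∑ i, c i • PowerSeries.map r₀ (b i) = 0 → ∀ i, c i = 0) := by
  have h1 : Module.Finite O₀ Λ := Module.Finite.iff_fg.mpr hfg
  have h0 : Module.IsTorsionFree O₀ (PowerSeries O₀) := ⟨fun a ha f g hfg => by
    ext n
    have h4 := congrArg (PowerSeries.coeff n) hfg
    simp only [map_smul, smul_eq_mul] at h4
    exact ha.left h4⟩
  have h2 : Module.Free O₀ Λ := Module.free_of_finite_type_torsion_free'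
  let b := Module.finBasis O₀ Λ
  refine ⟨_, fun i => (b i : PowerSeries O₀), fun i => (b i).2, fun f hf => ?_, fun c hc i => ?_⟩
  · refine ⟨b.repr ⟨f, hf⟩, ?_⟩
    have h3 := congrArg Subtype.val (b.sum_repr ⟨f, hf⟩)
    rw [Submodule.coe_sum] at h3
    exact h3.symm
  · choose a ha using fun i => H.surj₀ (c i)
    have h3 : PowerSeries.map r₀ (∑ i, a i • (b i : PowerSeries O₀)) = 0 := by
      rw [map_sum, ← hc]
      refine Finset.sum_congr rfl fun i _ => ?_
      rw [PowerSeries.smul_eq_C_mul, map_mul, PowerSeries.map_C, ha, ← PowerSeries.smul_eq_C_mul]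
    rw [H.map_eq_zero₀] at h3
    obtain ⟨g, hg⟩ := h3
    have hgΛ : g ∈ Λ := by
      apply hsat
      rw [← hg]
      exact Submodule.sum_mem _ fun i _ => Submodule.smul_mem _ _ (b i).2
    have h4 : ∑ i, a i • b i = π • (⟨g, hgΛ⟩ : Λ) := by
      apply Subtype.ext
      rw [Submodule.coe_sum]
      change ∑ i, a i • (b i : PowerSeries O₀) = π • g
      rw [hg, PowerSeries.smul_eq_C_mul]
    have h5 := congrArg (fun x => b.repr x i) h4
    simp only [map_sum, map_smul, Module.Basis.repr_self, Finsupp.smul_apply, smul_eq_mul,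
      Finsupp.finsetSum_apply, Finsupp.smul_single, mul_one] at h5
    rw [Finset.sum_eq_single i, Finsupp.single_eq_same] at h5
    · rw [← ha, H.ker₀, h5]
      exact dvd_mul_right _ _
    · intro j _ hj
      exact Finsupp.single_eq_of_ne (Ne.symm hj)
    · intro h
      exact absurd (Finset.mem_univ _) h

section Basis

variable {n : ℕ} {b : Fin n → PowerSeries O₀} {Λ : Submodule O₀ (PowerSeries O₀)}

theorem mem_ext_iff (hb : ∀ i, b i ∈ Λ) (hs : ∀ f ∈ Λ, ∃ c : Fin n → O₀, f = ∑ i, c i • b i)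
    {f : PowerSeries O} :
    f ∈ ext inc Λ ↔ ∃ c : Fin n → O, f = ∑ i, c i • PowerSeries.map inc (b i) := by
  constructor
  · intro hf
    induction hf using Submodule.span_induction with
    | mem x hx =>
      obtain ⟨g, hg, rfl⟩ := hx
      obtain ⟨c, rfl⟩ := hs g hg
      refine ⟨fun i => inc (c i), ?_⟩
      rw [map_sum]
      refine Finset.sum_congr rfl fun i _ => ?_
      rw [PowerSeries.smul_eq_C_mul, map_mul, PowerSeries.map_C, ← PowerSeries.smul_eq_C_mul]
    | zero => exact ⟨0, by simp⟩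
    | add x y _ _ hx hy =>
      obtain ⟨c, rfl⟩ := hx
      obtain ⟨c', rfl⟩ := hy
      exact ⟨c + c', by simp [add_smul, Finset.sum_add_distrib]⟩
    | smul a x _ hx =>
      obtain ⟨c, rfl⟩ := hx
      exact ⟨fun i => a * c i, by simp [Finset.smul_sum, mul_smul]⟩
  · rintro ⟨c, rfl⟩
    exact Submodule.sum_mem _ fun i _ => Submodule.smul_mem _ _
      (Submodule.subset_span ⟨b i, hb i, rfl⟩)

variable (H : Cpl π inc r₀ r)
  (hind : ∀ c : Fin n → k, ∑ i, c i • PowerSeries.map r₀ (b i) = 0 → ∀ i, c i = 0)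
include H hind

theorem Cpl.dvd_of_dvd {c : Fin n → O}
    (h : PowerSeries.C (inc π) ∣ ∑ i, c i • PowerSeries.map inc (b i)) (i : Fin n) :
    inc π ∣ c i := by
  rw [← H.ker]
  apply hind (fun i => r (c i))
  rw [← H.map_eq_zero] at h
  rw [← h, map_sum]
  refine Finset.sum_congr rfl fun i _ => ?_
  rw [PowerSeries.smul_eq_C_mul _ (c i), map_mul, PowerSeries.map_C, H.map_inc,
    ← PowerSeries.smul_eq_C_mul]

theorem Cpl.dvd_of_dvd_pow (s : ℕ) : ∀ {c : Fin n → O},
    PowerSeries.C (inc π) ^ s ∣ ∑ i, c i • PowerSeries.map inc (b i) → ∀ i, inc π ^ s ∣ c i := by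
  induction s with
  | zero => intro c _ i; rw [pow_zero]; exact one_dvd _
  | succ s ih =>
    intro c hc i
    have h1 := H.dvd_of_dvd hind ((dvd_pow_self _ (Nat.succ_ne_zero s)).trans hc)
    choose d hd using h1
    have h2 : ∑ i, c i • PowerSeries.map inc (b i) =
        PowerSeries.C (inc π) * ∑ i, d i • PowerSeries.map inc (b i) := by
      rw [Finset.mul_sum]
      refine Finset.sum_congr rfl fun i _ => ?_
      rw [hd i, mul_smul, PowerSeries.smul_eq_C_mul _ (inc π)]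
    rw [h2, pow_succ'] at hc
    obtain ⟨g, hg⟩ := hc
    have h3 : ∑ i, d i • PowerSeries.map inc (b i) = PowerSeries.C (inc π) ^ s * g := by
      rw [← sub_eq_zero]
      apply H.nzd'
      rw [mul_sub, hg]
      ring
    rw [hd i, pow_succ']
    exact mul_dvd_mul_left _ (ih ⟨g, h3⟩ i)

theorem Cpl.ext_sat' (hb : ∀ i, b i ∈ Λ) (hs : ∀ f ∈ Λ, ∃ c : Fin n → O₀, f = ∑ i, c i • b i)
    {f : PowerSeries O} (hf : PowerSeries.C (inc π) * f ∈ ext inc Λ) : f ∈ ext inc Λ := by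
  rw [mem_ext_iff hb hs] at hf ⊢
  obtain ⟨c, hc⟩ := hf
  have h1 := H.dvd_of_dvd hind (c := c) ⟨f, hc.symm⟩
  choose d hd using h1
  refine ⟨d, ?_⟩
  rw [← sub_eq_zero]
  apply H.nzd'
  rw [mul_sub, hc, sub_eq_zero, Finset.mul_sum]
  refine Finset.sum_congr rfl fun i _ => ?_
  rw [hd i, mul_smul, PowerSeries.smul_eq_C_mul _ (inc π)]

theorem Cpl.ext_closed' [IsAdicComplete (Ideal.span {inc π}) O] (hb : ∀ i, b i ∈ Λ)
    (hs : ∀ f ∈ Λ, ∃ c : Fin n → O₀, f = ∑ i, c i • b i)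
    {f : PowerSeries O} (hf : ∀ s, ∃ l ∈ ext inc Λ, PowerSeries.C (inc π) ^ s ∣ f - l) :
    f ∈ ext inc Λ := by
  rw [mem_ext_iff hb hs]
  choose l hl hfl using hf
  have h1 := fun s => (mem_ext_iff hb hs).mp (hl s)
  choose c hc using h1
  have h2 : ∀ i s, inc π ^ s ∣ c (s + 1) i - c s i := by
    intro i s
    refine H.dvd_of_dvd_pow hind s (c := fun i => c (s + 1) i - c s i) ?_ i
    have h3 : ∑ i, (c (s + 1) i - c s i) • PowerSeries.map inc (b i) = l (s + 1) - l s := by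
      rw [hc, hc, ← Finset.sum_sub_distrib]
      exact Finset.sum_congr rfl fun i _ => sub_smul _ _ _
    rw [h3]
    have h4 : l (s + 1) - l s = (f - l s) - (f - l (s + 1)) := by ring
    rw [h4]
    exact dvd_sub (hfl s) ((pow_dvd_pow _ (Nat.le_succ s)).trans (hfl (s + 1)))
  choose d hd using fun i => exists_lim (π := inc π) (f := fun s => c s i) (h2 i)
  refine ⟨d, ?_⟩
  rw [← sub_eq_zero]
  ext m
  rw [map_zero]
  refine eq_zero_of_dvd (π := inc π) fun s => ?_
  have h5 : PowerSeries.C (inc π ^ s) ∣ f - ∑ i, d i • PowerSeries.map inc (b i) := by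
    have h6 : f - ∑ i, d i • PowerSeries.map inc (b i) =
        (f - l s) - ∑ i, (d i - c s i) • PowerSeries.map inc (b i) := by
      rw [hc s]
      have : ∑ i, (d i - c s i) • PowerSeries.map inc (b i) =
          ∑ i, d i • PowerSeries.map inc (b i) - ∑ i, c s i • PowerSeries.map inc (b i) := by
        rw [← Finset.sum_sub_distrib]
        exact Finset.sum_congr rfl fun i _ => sub_smul _ _ _
      rw [this]
      ring
    rw [h6, map_pow]
    refine dvd_sub (hfl s) (Finset.dvd_sum fun i _ => ?_)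
    obtain ⟨e, he⟩ := hd i s
    rw [he, mul_smul, PowerSeries.smul_eq_C_mul, map_pow]
    exact dvd_mul_right _ _
  exact C_dvd_iff.mp h5 m

end Basis

variable (H : Cpl π inc r₀ r)
include H

theorem Cpl.ext_sat {Λ : Submodule O₀ (PowerSeries O₀)} (hfg : Λ.FG)
    (hsat : ∀ f, PowerSeries.C π * f ∈ Λ → f ∈ Λ) {f : PowerSeries O}
    (hf : PowerSeries.C (inc π) * f ∈ ext inc Λ) : f ∈ ext inc Λ := by
  obtain ⟨n, b, hb, hs, hind⟩ := H.exists_basis hfg hsat
  exact H.ext_sat' hind hb hs hf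

theorem Cpl.ext_closed [IsAdicComplete (Ideal.span {inc π}) O]
    {Λ : Submodule O₀ (PowerSeries O₀)} (hfg : Λ.FG)
    (hsat : ∀ f, PowerSeries.C π * f ∈ Λ → f ∈ Λ) {f : PowerSeries O}
    (hf : ∀ s, ∃ l ∈ ext inc Λ, PowerSeries.C (inc π) ^ s ∣ f - l) : f ∈ ext inc Λ := by
  obtain ⟨n, b, hb, hs, hind⟩ := H.exists_basis hfg hsat
  exact H.ext_closed' hind hb hs hf

theorem Cpl.ext_red {Λ : Submodule O₀ (PowerSeries O₀)} {f : PowerSeries O} (hf : f ∈ ext inc Λ) :
    ∃ g ∈ Λ, PowerSeries.map r₀ g = PowerSeries.map r f := by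
  induction hf using Submodule.span_induction with
  | mem x hx =>
    obtain ⟨g, hg, rfl⟩ := hx
    exact ⟨g, hg, (H.map_inc g).symm⟩
  | zero => exact ⟨0, zero_mem _, by rw [map_zero, map_zero]⟩
  | add x y _ _ hx hy =>
    obtain ⟨g, hg, hgx⟩ := hx
    obtain ⟨g', hg', hgx'⟩ := hy
    exact ⟨g + g', add_mem hg hg', by rw [map_add, map_add, hgx, hgx']⟩
  | smul a x _ hx =>
    obtain ⟨g, hg, hgx⟩ := hx
    obtain ⟨a₀, ha₀⟩ := H.surj₀ (r a)
    refine ⟨a₀ • g, Submodule.smul_mem _ _ hg, ?_⟩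
    rw [PowerSeries.smul_eq_C_mul, PowerSeries.smul_eq_C_mul, map_mul, map_mul, PowerSeries.map_C,
      PowerSeries.map_C, ha₀, hgx]

/-- **The completed system.** -/
theorem Cpl.lred [IsAdicComplete (Ideal.span {inc π}) O] {Λ : ℕ → Submodule O₀ (PowerSeries O₀)}
    (hone : 1 ∈ Λ 0) (hmul : ∀ i j, ∀ f ∈ Λ i, ∀ g ∈ Λ j, f * g ∈ Λ (i + j))
    (hfg : ∀ i, (Λ i).FG) (hsat : ∀ i f, PowerSeries.C π * f ∈ Λ i → f ∈ Λ i)
    {Lb : ℕ → Set (PowerSeries k)}
    (hLb : ∀ i f, f ∈ Lb i ↔ ∃ g ∈ Λ i, PowerSeries.map r₀ g = f) :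
    LRed (PowerSeries.C (inc π)) (fun i => ext inc (Λ i)) (PowerSeries.map r) Lb where
  sys :=
    { one := Submodule.subset_span ⟨1, hone, map_one _⟩
      mul := fun {i j f g} hf hg => ext_mul (hmul i j) hf hg
      sat := fun {i f} hf => H.ext_sat (hfg i) (hsat i) hf
      closed := fun {i f} hf => H.ext_closed (hfg i) (hsat i) hf }
  nzd := H.nzd'
  exp := ⟨inc π, rfl⟩
  surj := by
    intro f
    have hr : Function.Surjective r := fun x => by
      obtain ⟨a, ha⟩ := H.surj₀ x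
      exact ⟨inc a, by rw [H.red_inc, ha]⟩
    exact PowerSeries.map_surjective r hr f
  ker := H.map_eq_zero
  mem i f := by
    rw [hLb]
    constructor
    · rintro ⟨g, hg, rfl⟩
      exact ⟨_, Submodule.subset_span ⟨g, hg, rfl⟩, H.map_inc g⟩
    · rintro ⟨l, hl, rfl⟩
      obtain ⟨g, hg, h⟩ := H.ext_red hl
      exact ⟨g, hg, h⟩

end Fermat.Agent.Lf
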