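import Mathlib
import Fermat.Agent.Flat.Conc5
import Fermat.Agent.LG.Inf
import Fermat.Agent.Lf.LevB

/-!
Lifting of sections: integrality of the expansions.
-/

set_option autoImplicit false
set_option linter.unusedSectionVars false

noncomputable section

namespace Fermat.Agent.Flat

universe u

section Lift2

open AlgebraicCurve IsDedekindDomain IntermediateField WithZero Module Fermat.Agent.FunField
open Polynomial (aeval)
open Fermat.Agent.Geo IsLocalRing

variable {Ω κ F E : Type*} [Field Ω] [Field κ] [Field F] [Field E] [Algebra Ω F] [Algebra κ E]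
  {A : ValuationSubring Ω}
  {r : A →+* κ} {W : Subring F} {ρ : W →+* E} {t : F} {tb : E} {d : ℕ} {e : Fin d → F}
  [IsAlgClosed Ω] [IsAlgClosed κ]

variable {O FL EL : Type u} [CommRing O] [IsDomain O] [IsDiscreteValuationRing O] [Field FL]
  [Field EL] [Algebra O FL] [Algebra O EL] [Algebra FL EL] [IsScalarTower O FL EL]
  [FiniteDimensional FL EL] [Algebra.IsSeparable FL EL] [CharZero O] {tL : FL} {π : O}

/-- **Lifting**. -/
theorem Pre.exists_lift2 (h : Pre r W ρ t tb e) (ht : Sep Ω t) (htb : Sep κ h.tbb)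
    {htL : IsParam O tL} {hπ : Prime π} {S S' : Set O} (htL' : IsParam O tL⁻¹)
    (hE : GoodRed htL hπ S EL) (hE' : GoodRed htL' hπ S' EL)
    (WL : Subring EL) (hint : ∀ x ∈ WL, IntOver (gaussVal htL hπ).toSubring x)
    (hint' : ∀ x, IntOver (gaussVal htL hπ).toSubring x → x ∈ WL)
    (j : EL →+* F) (hj : ∀ x ∈ WL, j x ∈ W)
    (hker : ∀ x (hx : x ∈ WL), ρ ⟨j x, hj x hx⟩ = 0 → ∃ w ∈ WL, x = π • w)
    (s : O →+* A) (hs : ∀ a, j (algebraMap O EL a) = algebraMap Ω F (s a))
    (hsr : Function.Surjective (r.comp s)) (hsπ : r (s π) = 0)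
    (hjt : j (algebraMap FL EL tL) = t) (htW : algebraMap FL EL tL ∈ WL)
    (hOW : ∀ a, algebraMap O EL a ∈ WL)
    (hinvL : ∀ x (hx : x ∈ WL), ρ ⟨j x, hj x hx⟩ ≠ 0 → x⁻¹ ∈ WL)
    (eL : Fin d → EL) (heW : ∀ i, eL i ∈ WL) (hje : ∀ i, j (eL i) = e i) :
    ∃ M : ℕ, ∀ n ≥ M, ∀ zb ∈ riemannRochSpace (n • pol (K := κ) h.tbb),
      ∃ (zL : EL) (hz : zL ∈ WL), j zL ∈ riemannRochSpace (n • pol (K := Ω) t) ∧
        h.ρb ⟨j zL, hj zL hz⟩ = zb ∧ (∃ p : Polynomial (Polynomial O), p.Monic ∧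
          p.eval₂ ((aeval (algebraMap FL EL tL)⁻¹ : Polynomial O →ₐ[O] EL) :
            Polynomial O →+* EL) ((algebraMap FL EL tL)⁻¹ ^ n * zL) = 0) := by
  obtain ⟨M, hM⟩ := Fermat.Agent.Flat.exists_lift htL' hE hE'
  refine ⟨M, fun n hn zb hzb => ?_⟩
  -- the reduction at level `L`
  let jW : WL →+* W := (j.comp WL.subtype).codRestrict W fun x => hj x x.2
  let ρL : WL →+* E := ρ.comp jW
  let evL : Polynomial O →+* WL :=
    Polynomial.eval₂RingHom ((algebraMap O EL).codRestrict WL hOW) ⟨_, htW⟩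
  have hevL : ∀ P, (evL P : EL) = aeval (algebraMap FL EL tL) P := by
    intro P
    change WL.subtype (Polynomial.eval₂ _ _ P) = _
    rw [Polynomial.hom_eval₂, Polynomial.aeval_def]
    rfl
  have hρev : ∀ P, ρL (evL P) = aeval tb (P.map (r.comp s)) := by
    intro P
    change ρL (Polynomial.eval₂ _ _ P) = _
    rw [Polynomial.hom_eval₂, Polynomial.aeval_def, Polynomial.eval₂_map]
    have h1 : ρL ⟨_, htW⟩ = tb := by
      rw [← h.tρ]
      change ρ (jW _) = _
      congr 1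
      exact Subtype.ext hjt
    rw [h1]
    congr 1
    refine RingHom.ext fun a => ?_
    change ρ (jW _) = algebraMap κ E (r (s a))
    rw [← h.ralg (s a) (h.alg _ (s a).2)]
    congr 1
    exact Subtype.ext (hs a)
  have hkerL : ∀ x : WL, ρL x = 0 → ∃ w ∈ WL, (x : EL) = π • w := fun x hx => hker x x.2 hx
  have hρπ : ∀ w ∈ WL, ∀ h0 : π • w ∈ WL, ρL ⟨π • w, h0⟩ = 0 := by
    intro w hw h0
    have h1 : (⟨π • w, h0⟩ : WL) = evL (Polynomial.C π) * ⟨w, hw⟩ := by
      apply Subtype.ext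
      rw [Subring.coe_mul, hevL, Polynomial.aeval_C]
      exact Algebra.smul_def _ _
    rw [h1, map_mul, hρev, Polynomial.map_C]
    change aeval tb (Polynomial.C (r (s π))) * _ = 0
    rw [hsπ, map_zero, map_zero, zero_mul]
  have htL0 : algebraMap FL EL tL ≠ 0 := by
    rw [Ne, map_eq_zero]
    exact htL.ne_zero
  have htLinv : (algebraMap FL EL tL)⁻¹ ∈ WL := by
    apply hinvL _ htW
    have h1 : ρ ⟨j (algebraMap FL EL tL), hj _ htW⟩ = tb := by
      rw [← h.tρ]
      congr 1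
      exact Subtype.ext hjt
    rw [h1]
    exact h.tb_ne
  -- an element reducing to `zb`
  obtain ⟨x0, hx0⟩ : ∃ x0 : WL, ρL x0 = (zb : E) := by
    obtain ⟨z0, hz0⟩ := zb.2
    obtain ⟨Q, P, hQ, hQP⟩ := h.exists_red z0
    rw [hz0] at hQP
    obtain ⟨Q', hQ'⟩ := Polynomial.map_surjective _ hsr Q
    choose P' hP' using fun i => Polynomial.map_surjective _ hsr (P i)
    have hρQ : ρL (evL Q') ≠ 0 := by
      rw [hρev, hQ', Ne, aeval_eq_zero_iff h.trb]
      exact hQ
    have hQinv : ((evL Q' : WL) : EL)⁻¹ ∈ WL := hinvL _ (evL Q').2 hρQ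
    have hQ0 : ((evL Q' : WL) : EL) ≠ 0 := by
      intro h0
      have h1 : evL Q' = 0 := Subtype.ext h0
      rw [h1, map_zero] at hρQ
      exact hρQ rfl
    let x0 : WL := ⟨_, hQinv⟩ * ∑ i, evL (P' i) * ⟨eL i, heW i⟩
    refine ⟨x0, ?_⟩
    have h1 : evL Q' * x0 = ∑ i, evL (P' i) * ⟨eL i, heW i⟩ := by
      have h2 : evL Q' * ⟨_, hQinv⟩ = 1 := Subtype.ext (mul_inv_cancel₀ hQ0)
      simp only [x0]
      rw [← mul_assoc, h2, one_mul]
    have h2 := congrArg ρL h1
    rw [map_mul, map_sum, hρev, hQ'] at h2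
    apply mul_left_cancel₀ (a := aeval tb Q)
    · rw [Ne, aeval_eq_zero_iff h.trb]
      exact hQ
    · rw [h2, hQP]
      refine Finset.sum_congr rfl fun i _ => ?_
      rw [map_mul, hρev, hP']
      congr 1
      change ρ (jW _) = _
      congr 1
      exact Subtype.ext (hje i)
  -- integral equations
  rw [mem_nL_iff htb] at hzb
  obtain ⟨hz1, hz2⟩ := hzb
  have hred1 : RedIntP htL hπ (x0 : EL) := by
    obtain ⟨p, hp, hpz⟩ := exists_monic_of_isIntegral (htb.isIntegral hz1)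
    refine redIntP_of_red WL hint ρL hkerL evL hevL (r.comp s) hsr
      ((aeval tb : Polynomial κ →ₐ[κ] E) : Polynomial κ →+* E) hρev x0 hp ?_
    rw [hx0]
    have h1 := congrArg h.Fb.val hpz
    rw [map_zero] at h1
    change (h.Fb.val : h.Fb →+* E) _ = 0 at h1
    rw [Polynomial.hom_eval₂] at h1
    rw [← h1]
    congr 1
    refine RingHom.ext fun P => ?_
    exact (h.coe_aeval P).symm
  have hinvE : algebraMap FL EL tL⁻¹ = (algebraMap FL EL tL)⁻¹ := map_inv₀ _ _
  have hgg : gaussVal htL' hπ = gaussVal htL hπ := gaussVal_inv htL htL' hπ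
  have hred2 : RedIntP htL' hπ ((algebraMap FL EL tL)⁻¹ ^ n * (x0 : EL)) := by
    obtain ⟨p, hp, hpz⟩ := exists_monic_of_isIntegral (htb.inv.isIntegral hz2)
    let evL' : Polynomial O →+* WL :=
      Polynomial.eval₂RingHom ((algebraMap O EL).codRestrict WL hOW) ⟨_, htLinv⟩
    have hevL' : ∀ P, (evL' P : EL) = aeval (algebraMap FL EL tL⁻¹) P := by
      intro P
      change WL.subtype (Polynomial.eval₂ _ _ P) = _
      rw [Polynomial.hom_eval₂, Polynomial.aeval_def, hinvE]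
      rfl
    have hρt : ρL ⟨_, htLinv⟩ = tb⁻¹ := by
      apply eq_inv_of_mul_eq_one_right
      have h1 : ρL ⟨_, htW⟩ = tb := by
        rw [← h.tρ]
        change ρ (jW _) = _
        congr 1
        exact Subtype.ext hjt
      rw [← h1, ← map_mul, ← map_one ρL]
      congr 1
      exact Subtype.ext (mul_inv_cancel₀ htL0)
    have hρev' : ∀ P, ρL (evL' P) =
        ((aeval tb⁻¹ : Polynomial κ →ₐ[κ] E) : Polynomial κ →+* E) (P.map (r.comp s)) := by
      intro P
      change ρL (Polynomial.eval₂ _ _ P) = aeval tb⁻¹ (P.map (r.comp s))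
      rw [Polynomial.hom_eval₂, Polynomial.aeval_def, Polynomial.eval₂_map, hρt]
      congr 1
      refine RingHom.ext fun a => ?_
      change ρ (jW _) = algebraMap κ E (r (s a))
      rw [← h.ralg (s a) (h.alg _ (s a).2)]
      congr 1
      exact Subtype.ext (hs a)
    let x1 : WL := ⟨_, htLinv⟩ ^ n * x0
    refine redIntP_of_red (ht := htL') WL (fun x hx => by rw [hgg]; exact hint x hx) ρL hkerL evL'
      hevL' (r.comp s) hsr
      ((aeval tb⁻¹ : Polynomial κ →ₐ[κ] E) : Polynomial κ →+* E) hρev' x1 hp ?_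
    have hx1 : ρL x1 = ((zb * h.tbb⁻¹ ^ n : h.Fb) : E) := by
      simp only [x1]
      rw [map_mul, map_pow, hρt, hx0]
      push_cast
      rw [mul_comm]
      rfl
    rw [hx1]
    have h1 := congrArg h.Fb.val hpz
    rw [map_zero] at h1
    change (h.Fb.val : h.Fb →+* E) _ = 0 at h1
    rw [Polynomial.hom_eval₂] at h1
    rw [← h1]
    congr 1
    refine RingHom.ext fun P => ?_
    change aeval tb⁻¹ P = h.Fb.val (aeval h.tbb⁻¹ P)
    rw [← Polynomial.aeval_algHom_apply]
    congr 2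
  obtain ⟨z, hz, hz', w, hw, hxz⟩ := hM n hn _ hred1 hred2
  have hzW : z ∈ WL := hint' z (intOver_of_mem_chart htL hπ hz)
  have hadj : ∀ P : Polynomial O, j (aeval (algebraMap FL EL tL) P) ∈ Algebra.adjoin Ω {t} := by
    intro P
    rw [Algebra.adjoin_singleton_eq_range_aeval]
    refine ⟨P.map (A.subtype.comp s), ?_⟩
    change aeval t _ = _
    rw [Polynomial.aeval_def, Polynomial.aeval_def, Polynomial.hom_eval₂, Polynomial.eval₂_map, hjt]
    congr 1
    exact RingHom.ext fun a => (hs a).symm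
  have hadj' : ∀ P : Polynomial O, j (aeval (algebraMap FL EL tL)⁻¹ P) ∈
      Algebra.adjoin Ω {t⁻¹} := by
    intro P
    rw [Algebra.adjoin_singleton_eq_range_aeval]
    refine ⟨P.map (A.subtype.comp s), ?_⟩
    change aeval t⁻¹ _ = _
    rw [Polynomial.aeval_def, Polynomial.aeval_def, Polynomial.hom_eval₂, Polynomial.eval₂_map,
      map_inv₀, hjt]
    congr 1
    exact RingHom.ext fun a => (hs a).symm
  refine ⟨z, hzW, ?_, ?_, by
    obtain ⟨p, hp, hpz⟩ := hz'
    refine ⟨p, hp, ?_⟩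
    rw [← hinvE]
    rw [← hinvE] at hpz
    exact hpz⟩
  · rw [mem_nL_iff ht]
    constructor
    · obtain ⟨p, hp, hpz⟩ := hz
      have h1 : IsIntegral (Algebra.adjoin Ω {t}) (j z) := by
        refine isIntegral_of_monic (j.comp ((aeval (algebraMap FL EL tL) : Polynomial O →ₐ[O] EL) :
          Polynomial O →+* EL)) hadj hp ?_
        rw [← Polynomial.hom_eval₂, hpz, map_zero]
      exact fun v hv => ord_nonneg_of_isIntegral h1 v hv
    · obtain ⟨p, hp, hpz⟩ := hz'
      have h1 : IsIntegral (Algebra.adjoin Ω {t⁻¹}) (j z * t⁻¹ ^ n) := by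
        have h2 : j z * t⁻¹ ^ n = j ((algebraMap FL EL tL)⁻¹ ^ n * z) := by
          rw [map_mul, map_pow, map_inv₀, hjt, mul_comm]
        rw [h2]
        refine isIntegral_of_monic (j.comp ((aeval (algebraMap FL EL tL)⁻¹ :
          Polynomial O →ₐ[O] EL) : Polynomial O →+* EL)) hadj' hp ?_
        rw [← Polynomial.hom_eval₂, hpz, map_zero]
      exact fun v hv => ord_nonneg_of_isIntegral h1 v hv
  · apply Subtype.ext
    change ρL ⟨z, hzW⟩ = _
    rw [← hx0]
    have hwW : w ∈ WL := hint' w hw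
    have hπw : π • w ∈ WL := by
      rw [Algebra.smul_def]
      exact mul_mem (hOW π) hwW
    have h1 : x0 = ⟨z, hzW⟩ + ⟨π • w, hπw⟩ := Subtype.ext hxz
    rw [h1, map_add, hρπ w hwW hπw, add_zero]

end Lift2

section Level2

open AlgebraicCurve IsDedekindDomain IntermediateField WithZero Module Fermat.Agent.FunField
open Fermat.Agent.LG Fermat.Agent.ModFun Fermat.Agent.Geo
open Fermat.Agent.ESCore (HauptFn haupt2 haupt3 ιC)
open IsLocalRing ModularCurve

section PS

variable {O L : Type u} [CommRing O] [IsDomain O] [IsDiscreteValuationRing O] [Field L]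
  [Algebra O L] [IsFractionRing O L] {p : ℕ} [Fact p.Prime] {κ : ℤ}

/-- the expansion of `1/t` as a power series -/
def tinv (R : Type*) [CommRing R] (p : ℕ) [NeZero p] (κ : ℤ) : PowerSeries R :=
  PowerSeries.map (Int.castRingHom R)
    (PowerSeries.X * PowerSeries.invOfUnit (Fermat.Agent.ESCore.TWi p κ) 1)

theorem tS_mul_tinv (R : Type*) [CommRing R] (p : ℕ) [NeZero p] (κ : ℤ) :
    tS R p κ * HahnSeries.ofPowerSeries ℤ R (tinv R p κ) = 1 := by
  have h1 : tZ p κ * HahnSeries.ofPowerSeries ℤ ℤ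
      (PowerSeries.X * PowerSeries.invOfUnit (Fermat.Agent.ESCore.TWi p κ) 1) = 1 := by
    rw [tZ, map_mul, HahnSeries.ofPowerSeries_X]
    have h2 : HahnSeries.ofPowerSeries ℤ ℤ (Fermat.Agent.ESCore.TWi p κ) *
        HahnSeries.ofPowerSeries ℤ ℤ (PowerSeries.invOfUnit (Fermat.Agent.ESCore.TWi p κ) 1) = 1 := by
      rw [← map_mul, PowerSeries.mul_invOfUnit _ _ (by
        rw [Fermat.Agent.ESCore.constantCoeff_TWi]; rfl), map_one]
    have h3 : (HahnSeries.single (-1 : ℤ) (1 : ℤ) : LaurentSeries ℤ) *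
        HahnSeries.single (1 : ℤ) (1 : ℤ) = 1 := by
      rw [HahnSeries.single_mul_single]
      simp
    calc _ = (HahnSeries.single (-1 : ℤ) (1 : ℤ) * HahnSeries.single (1 : ℤ) (1 : ℤ)) *
          (HahnSeries.ofPowerSeries ℤ ℤ (Fermat.Agent.ESCore.TWi p κ) *
          HahnSeries.ofPowerSeries ℤ ℤ
            (PowerSeries.invOfUnit (Fermat.Agent.ESCore.TWi p κ) 1)) := by ring
      _ = 1 := by rw [h2, h3, one_mul]
  have h2 := congrArg (ModularCurve.coeffMap (Int.castRingHom R)) h1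
  rw [map_mul, map_one] at h2
  rw [tS, tinv, ← h2]
  congr 1
  ext n
  rw [ModularCurve.coeffMap_coeff]
  rcases lt_or_ge n 0 with hn | hn
  · rw [ModularCurve.ofPowerSeries_coeff_of_neg _ hn, ModularCurve.ofPowerSeries_coeff_of_neg _ hn,
      map_zero]
  · lift n to ℕ using hn
    rw [HahnSeries.ofPowerSeries_apply_coeff, HahnSeries.ofPowerSeries_apply_coeff,
      PowerSeries.coeff_map]

theorem ofPowerSeries_map {R S : Type*} [CommRing R] [CommRing S] (f : R →+* S)
    (P : PowerSeries R) : HahnSeries.ofPowerSeries ℤ S (PowerSeries.map f P) =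
      ModularCurve.coeffMap f (HahnSeries.ofPowerSeries ℤ R P) := by
  ext n
  rw [ModularCurve.coeffMap_coeff]
  rcases lt_or_ge n 0 with hn | hn
  · rw [ModularCurve.ofPowerSeries_coeff_of_neg _ hn, ModularCurve.ofPowerSeries_coeff_of_neg _ hn,
      map_zero]
  · lift n to ℕ using hn
    rw [HahnSeries.ofPowerSeries_apply_coeff, HahnSeries.ofPowerSeries_apply_coeff,
      PowerSeries.coeff_map]

theorem map_tinv {R S : Type*} [CommRing R] [CommRing S] (f : R →+* S) (p : ℕ) [NeZero p]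
    (κ : ℤ) : PowerSeries.map f (tinv R p κ) = tinv S p κ := by
  ext n
  rw [tinv, tinv, PowerSeries.coeff_map, PowerSeries.coeff_map, PowerSeries.coeff_map]
  simp

theorem exists_ps_of_chart {x : LaurentSeries L} (hx : x ∈ gK O L)
    (g : Polynomial O →+* LaurentSeries L)
    (hgC : ∀ a, g (Polynomial.C a) = HahnSeries.C (algebraMap O L a))
    (hgX : g Polynomial.X = (tS L p κ)⁻¹) {pp : Polynomial (Polynomial O)} (hpp : pp.Monic)
    (h0 : pp.eval₂ g x = 0) : ∃ P : PowerSeries O, x = toL O L (HahnSeries.ofPowerSeries ℤ O P) := by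
  let φ : PowerSeries O →+* LaurentSeries L := (toL O L).comp (HahnSeries.ofPowerSeries ℤ O)
  refine LG.exists_powerSeries hx φ (fun P => rfl) ?_
  let ψ : Polynomial O →+* PowerSeries O :=
    Polynomial.eval₂RingHom PowerSeries.C (tinv O p κ)
  refine ⟨pp.map ψ, hpp.map ψ, ?_⟩
  rw [Polynomial.eval₂_map]
  have hg : φ.comp ψ = g := by
    refine Polynomial.ringHom_ext (fun a => ?_) ?_
    · rw [hgC]
      change toL O L (HahnSeries.ofPowerSeries ℤ O (Polynomial.eval₂ _ _ (Polynomial.C a))) = _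
      rw [Polynomial.eval₂_C, HahnSeries.ofPowerSeries_C]
      exact toL_C a
    · rw [hgX]
      change toL O L (HahnSeries.ofPowerSeries ℤ O (Polynomial.eval₂ _ _ Polynomial.X)) = _
      rw [Polynomial.eval₂_X]
      apply eq_inv_of_mul_eq_one_right
      have h1 := congrArg (toL O L) (tS_mul_tinv O p κ)
      rw [map_mul, map_one, toL_tS] at h1
      exact h1
  rw [hg]
  exact h0

end PS


open AlgebraicCurve IsDedekindDomain IntermediateField WithZero Module Fermat.Agent.FunField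
open Polynomial (aeval)
open Fermat.Agent.LG Fermat.Agent.ModFun Fermat.Agent.Geo
open Fermat.Agent.ESCore (HauptFn haupt2 haupt3 ιC)
open IsLocalRing ModularCurve

/-- The field of algebraic numbers. -/
local notation "Qb" => AlgebraicClosure ℚ

section

variable {A : ValuationSubring Qb} {q : ℕ} {L : IntermediateField ℚ Qb}
  {p : ℕ} [Fact p.Prime] {κ : ℤ} {N : ℕ} [NeZero N]



/-- The lifting property. -/
theorem lift_of_level2 (hq : q.Prime) (hA : A.LiesOverPrime q) (hqN : ¬ q ∣ N) (hp : p ∣ N)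
    {H : HauptFn p κ} {S : Set ℤ} {k : ℕ} {P : Polynomial ℤ} (hH : HautData H S k P)
    (hS : ∀ c ∈ S, ∀ c' ∈ S, c ≠ c' →
      IsUnit ((c - c' : ℤ) : A.comap (algebraMap (KI A) Qb))) :
    ∃ (d : ℕ) (e : Fin d → F0 Qb N)
      (h : Pre (residue A) (W0 A N) (ρ0 A N) (tF H hp) (tS (ResidueField A) p κ) e),
      ∃ M : ℕ, ∀ n ≥ M, ∀ zb ∈ riemannRochSpace (n • pol (K := ResidueField A) h.tbb),
        ∃ z : W0 A N, (z : F0 Qb N) ∈ riemannRochSpace (n • pol (K := Qb) (tF H hp)) ∧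
          h.ρb z = zb ∧ ∃ zL : F0 (KI A) N, (z : F0 Qb N) = liftF (algebraMap (KI A) Qb) N zL ∧
            ∃ P : PowerSeries (A.comap (algebraMap (KI A) Qb)),
              (tS (KI A) p κ)⁻¹ ^ n * (zL : LaurentSeries (KI A)) =
                toL (A.comap (algebraMap (KI A) Qb)) (KI A) (HahnSeries.ofPowerSeries ℤ _ P) := by
  classical
  have hac : IsAlgClosed (ResidueField A) := isAlgClosed_residueA hq hA
  have hdvr := isDVR_KI hq hA
  have hac' := LG.isAlgClosed_residue A hq hA (KI A) le_rfl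
  have hNu : IsUnit ((N : ℕ) : A.comap (algebraMap (KI A) Qb)) := isUnit_natCast hq hA hqN
  obtain ⟨ζ, hζ⟩ := exists_zetaΩ ιC N
  have hζN : (ζ : Qb) ^ N = 1 := by
    apply ιC.injective
    rw [map_pow, hζ, map_one]
    exact (Complex.isPrimitiveRoot_exp N (NeZero.ne N)).pow_eq_one
  have hζL : (ζ : Qb) ∈ KI A := root_mem_KI hq hA hqN hζN
  let ζL : (KI A)ˣ := Units.mk0 ⟨ζ, hζL⟩ fun h0 => ζ.ne_zero (congrArg Subtype.val h0)
  let ι : KI A →+* ℂ := ιC.comp (algebraMap (KI A) Qb)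
  have hζ' : ι ζL = Complex.exp (2 * Real.pi * Complex.I / N) := hζ
  obtain ⟨π, hπi⟩ := IsDiscreteValuationRing.exists_irreducible (A.comap (algebraMap (KI A) Qb))
  have hπ : Prime π := hπi.prime
  have hle : Kt (KI A) p κ ≤ F0 (KI A) N := Kt_le_F0 H ι hp
  let _ := algO (A.comap (algebraMap (KI A) Qb)) (Kt (KI A) p κ)
  let _ := algO (A.comap (algebraMap (KI A) Qb)) (F0 (KI A) N)
  let _ := algI hle
  have _ : IsScalarTower (A.comap (algebraMap (KI A) Qb)) (Kt (KI A) p κ) (F0 (KI A) N) :=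
    tower_O _ hle
  obtain ⟨ht, hGR, hfd, huniq, e, he, hind⟩ := goodRed_F0 ι hζ' hNu hπ hp hH hS hle
  have hspan := level_span (N := N) hle hfd e fun P hP => indep_level he hind P hP
  have hpre := pre_of_level hq hA le_rfl H hp hspan he hind
  have hemb := (xModel_F0 (O := A.comap (algebraMap (KI A) Qb)) hle).isEmb
  have hgK : ∀ x : F0 (KI A) N, algebraMap (F0 (KI A) N) (LaurentSeries (KI A)) x ∈
      gK (A.comap (algebraMap (KI A) Qb)) (KI A) := fun x => F0_le_gK x.2
  have hover := hemb.over (hθ := hgK) ht hπ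
  let WL : Subring (F0 (KI A) N) := (gV (A.comap (algebraMap (KI A) Qb)) (KI A)).comap
    (algebraMap (F0 (KI A) N) (LaurentSeries (KI A)))
  have hu : ∀ c ∈ (fun c : ℤ => (c : A.comap (algebraMap (KI A) Qb))) '' S, c = 0 ∨ IsUnit c := by
    rintro _ ⟨c, hc, rfl⟩
    by_cases h0 : c = 0
    · left; rw [h0]; exact Int.cast_zero
    · right
      have := hS c hc 0 hH.zero h0
      rwa [sub_zero] at this
  have hGR' := goodRed_inv hGR ht.inv hu
  have hsepL : Algebra.IsSeparable (Kt (KI A) p κ) (F0 (KI A) N) := inferInstance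
  have hint : ∀ x ∈ WL, IntOver (gaussVal ht hπ).toSubring x := fun x hx =>
    intOver_of_unique WL (fun W' h1 h2 y hy => (huniq W' ⟨h1, h2⟩ y).mpr hy) hx
  have hint' : ∀ x, IntOver (gaussVal ht hπ).toSubring x → x ∈ WL := fun x hx =>
    mem_of_intOver hover.1 hx
  have hj : ∀ x ∈ WL, liftF (algebraMap (KI A) Qb) N x ∈ W0 A N := fun x hx =>
    (mem_gA_of_gV hx).1
  have hj2 : ∀ x (hx : x ∈ WL), ρ0 A N ⟨_, hj x hx⟩ =
      coeffMap subK (gR (⟨_, hx⟩ : gV (A.comap (algebraMap (KI A) Qb)) (KI A))) := fun x hx =>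
    (mem_gA_of_gV hx).2
  have hcoeO : ∀ a : A.comap (algebraMap (KI A) Qb),
      ((algebraMap (A.comap (algebraMap (KI A) Qb)) (F0 (KI A) N) a : F0 (KI A) N) :
        LaurentSeries (KI A)) = HahnSeries.C (algebraMap _ (KI A) a) := hemb.map_C
  have hCπ : (HahnSeries.C (algebraMap _ (KI A) π) : LaurentSeries (KI A)) ≠ 0 := by
    intro h0
    apply hπ.ne_zero
    apply Subtype.ext
    exact HahnSeries.C_injective (h0.trans (map_zero _).symm)
  have hπ0 : algebraMap (A.comap (algebraMap (KI A) Qb)) (F0 (KI A) N) π ≠ 0 := by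
    intro h4
    apply hCπ
    rw [← hcoeO, h4]
    rfl
  have hker : ∀ x (hx : x ∈ WL), ρ0 A N ⟨_, hj x hx⟩ = 0 → ∃ w ∈ WL, x = π • w := by
    intro x hx h0
    rw [hj2 x hx] at h0
    have h3 := (map_eq_zero_iff _ (coeffMap_inj subK.injective)).mp h0
    obtain ⟨y, hy, hxy⟩ := (gR_eq_zero_iff hπi _).mp h3
    refine ⟨(algebraMap _ (F0 (KI A) N) π)⁻¹ * x, ?_, ?_⟩
    · change (((algebraMap _ (F0 (KI A) N) π)⁻¹ * x : F0 (KI A) N) : LaurentSeries (KI A)) ∈
        gV _ _
      have h6 : (x : LaurentSeries (KI A)) = HahnSeries.C (algebraMap _ (KI A) π) * y := hxy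
      rw [IntermediateField.coe_mul, IntermediateField.coe_inv, hcoeO, h6, ← mul_assoc,
        inv_mul_cancel₀ hCπ, one_mul]
      exact hy
    · rw [Algebra.smul_def, ← mul_assoc, mul_inv_cancel₀ hπ0, one_mul]
  have hs : ∀ a : A.comap (algebraMap (KI A) Qb),
      liftF (algebraMap (KI A) Qb) N (algebraMap _ (F0 (KI A) N) a) =
      algebraMap Qb (F0 Qb N) (subA a : A) := by
    intro a
    apply Subtype.ext
    rw [coe_liftF, hcoeO]
    have h3 : ((algebraMap Qb (F0 Qb N) (subA a : A) : F0 Qb N) : LaurentSeries Qb) =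
      HahnSeries.C ((subA a : A) : Qb) := algebraMap_laurent Qb _
    rw [h3, HahnSeries.C_apply, HahnSeries.C_apply]
    exact coeffMap_single _ _ _
  have hsπ : residue A (subA π) = 0 := by
    rw [← subK_residue]
    have : residue _ π = 0 := by
      rw [residue_eq_zero_iff]
      exact hπ.not_isUnit
    rw [this, map_zero]
  have hjt : liftF (algebraMap (KI A) Qb) N (algebraMap (Kt (KI A) p κ) (F0 (KI A) N)
      (tK (KI A) p κ)) = tF H hp := Subtype.ext (coeffMap_tS _ p κ)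
  have htW : algebraMap (Kt (KI A) p κ) (F0 (KI A) N) (tK (KI A) p κ) ∈ WL := by
    change algebraMap (F0 (KI A) N) (LaurentSeries (KI A)) _ ∈ gV _ _
    rw [hemb.map_z]
    exact toL_mem_gV _
  have hOW : ∀ a, algebraMap (A.comap (algebraMap (KI A) Qb)) (F0 (KI A) N) a ∈ WL := by
    intro a
    change algebraMap (F0 (KI A) N) (LaurentSeries (KI A)) _ ∈ gV _ _
    rw [hemb.map_C]
    exact C_mem_gV a
  have hinvL : ∀ x (hx : x ∈ WL), ρ0 A N ⟨_, hj x hx⟩ ≠ 0 → x⁻¹ ∈ WL := by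
    intro x hx h0
    change algebraMap (F0 (KI A) N) (LaurentSeries (KI A)) _ ∈ gV _ _
    rw [map_inv₀]
    refine isUnit_of_gR_ne_zero (x := ⟨_, hx⟩) ?_
    intro h1
    apply h0
    rw [hj2 x hx, h1, map_zero]
  have hst := sep_tF (N := N) H hp
  have hstb := sep_tbb hpre
  have key := hpre.exists_lift2 hst hstb ht.inv hGR hGR' WL hint hint'
    (liftF (algebraMap (KI A) Qb) N) hj hker (subA (A := A) (L := KI A)) hs
    (residueComp_surjective hq hA le_rfl)
    hsπ hjt htW hOW hinvL e he (fun i => rfl)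
  obtain ⟨M, hM⟩ := key
  refine ⟨finrank (Kt (KI A) p κ) (F0 (KI A) N), fun i => liftF (algebraMap (KI A) Qb) N (e i),
    hpre, M, fun n hn zb hzb => ?_⟩
  obtain ⟨zL, hz, hz1, hz2, pp, hpp, hppz⟩ := hM n hn zb hzb
  refine ⟨⟨liftF (algebraMap (KI A) Qb) N zL, hj zL hz⟩, hz1, hz2, zL, rfl, ?_⟩
  let th : F0 (KI A) N →+* LaurentSeries (KI A) :=
    algebraMap (F0 (KI A) N) (LaurentSeries (KI A))
  have hT : th (algebraMap (Kt (KI A) p κ) (F0 (KI A) N) (tK (KI A) p κ)) = tS (KI A) p κ := rfl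
  have h5 := exists_ps_of_chart (p := p) (κ := κ)
    (x := th ((algebraMap (Kt (KI A) p κ) (F0 (KI A) N) (tK (KI A) p κ))⁻¹ ^ n * zL)) (hgK _)
    (th.comp ((aeval (algebraMap (Kt (KI A) p κ) (F0 (KI A) N) (tK (KI A) p κ))⁻¹ :
      Polynomial (A.comap (algebraMap (KI A) Qb)) →ₐ[A.comap (algebraMap (KI A) Qb)]
        F0 (KI A) N) : Polynomial (A.comap (algebraMap (KI A) Qb)) →+* F0 (KI A) N))
    (fun a => by
      rw [RingHom.comp_apply]
      change th (aeval _ (Polynomial.C a)) = _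
      rw [Polynomial.aeval_C]
      exact hcoeO a)
    (by
      rw [RingHom.comp_apply]
      change th (aeval _ Polynomial.X) = _
      rw [Polynomial.aeval_X, map_inv₀, hT]) hpp
    (by rw [← Polynomial.hom_eval₂, hppz, map_zero])
  rw [map_mul, map_pow, map_inv₀, hT] at h5
  exact h5


end

end Level2

end Fermat.Agent.Flat
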