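import Mathlib
import Fermat.Agent.Lf.Lift2
import Fermat.Agent.Lf.Lattice

/-!
The lattices of sections over the ring of integers of the field of inertia.
-/

set_option autoImplicit false
set_option linter.unusedSectionVars false

noncomputable section

namespace Fermat.Agent.Lf

open AlgebraicCurve IsDedekindDomain IntermediateField WithZero Module Fermat.Agent.FunField
open Polynomial (aeval)
open Fermat.Agent.LG Fermat.Agent.ModFun Fermat.Agent.Geo Fermat.Agent.Flat
open Fermat.Agent.ESCore (HauptFn haupt2 haupt3 ιC)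
open IsLocalRing ModularCurve

/-- The field of algebraic numbers. -/
local notation "Qb" => AlgebraicClosure ℚ

/-- Elements of a finite dimensional space of series are determined by finitely many
coefficients. -/
theorem exists_bound_coeff {K F : Type*} [Field K] [Field F] [Algebra K F]
    (θ : F →+* LaurentSeries K) (hθ : ∀ a : K, θ (algebraMap K F a) = HahnSeries.C a)
    (V : Submodule K F) [FiniteDimensional K V] :
    ∃ T : ℕ, ∀ z ∈ V, (∀ n : ℤ, n < T → (θ z).coeff n = 0) → z = 0 := by
  let f : ℕ →o (Submodule K V)ᵒᵈ :=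
    { toFun := fun T => OrderDual.toDual
        { carrier := {z | ∀ n : ℤ, n < T → (θ (z : F)).coeff n = 0}
          add_mem' := fun {a b} ha hb n hn => by
            change (θ ((a : F) + b)).coeff n = 0
            rw [map_add, HahnSeries.coeff_add, ha n hn, hb n hn, add_zero]
          zero_mem' := fun n _ => by
            change (θ (0 : F)).coeff n = 0
            rw [map_zero, HahnSeries.coeff_zero]
          smul_mem' := fun c a ha n hn => by
            change (θ (c • (a : F))).coeff n = 0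
            rw [Algebra.smul_def, map_mul, hθ, HahnSeries.C_mul_eq_smul, HahnSeries.coeff_smul,
              ha n hn, smul_zero] }
      monotone' := fun T T' h z hz n hn => hz n (hn.trans_le (by exact_mod_cast h)) }
  obtain ⟨T, hT⟩ := IsArtinian.monotone_stabilizes f
  refine ⟨T, fun z hz h => ?_⟩
  have h1 : ∀ T', T ≤ T' → ∀ n : ℤ, n < T' → (θ z).coeff n = 0 := by
    intro T' hT' n hn
    have h2 : (⟨z, hz⟩ : V) ∈ OrderDual.ofDual (f T) := h
    rw [hT T' hT'] at h2
    exact h2 n hn
  apply θ.injective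
  rw [map_zero]
  ext n
  rw [HahnSeries.coeff_zero]
  exact h1 (T + (n + 1).toNat) (Nat.le_add_right _ _) n (by
    have := Int.self_le_toNat (n + 1)
    push_cast
    omega)

section

variable (A : ValuationSubring Qb) {p : ℕ} [Fact p.Prime] {κ : ℤ} (N : ℕ) [NeZero N]

/-- the ring of integers -/
abbrev O0 : ValuationSubring (KI A) := A.comap (algebraMap (KI A) Qb)

/-- the reduction map -/
def red0 : O0 A →+* ResidueField A := (residue A).comp subA

variable {N}

/-- The lattice of sections of level `i`. -/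
def L0 (H : HauptFn p κ) (hp : p ∣ N) (c i : ℕ) : Submodule (O0 A) (PowerSeries (O0 A)) where
  carrier := {f | ∃ z : F0 (KI A) N, (z : LaurentSeries (KI A)) * xs (KI A) ^ (c * i) =
      HahnSeries.ofPowerSeries ℤ (KI A) (PowerSeries.map (algebraMap (O0 A) (KI A)) f) ∧
    liftF (algebraMap (KI A) Qb) N z ∈
      riemannRochSpace (i • (c • pol (K := Qb) (tF H hp)))}
  zero_mem' := ⟨0, by
    rw [map_zero, map_zero]
    change (0 : LaurentSeries (KI A)) * _ = 0
    rw [zero_mul], by rw [map_zero]; exact zero_mem _⟩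
  add_mem' := by
    rintro f f' ⟨z, h, hz⟩ ⟨z', h', hz'⟩
    refine ⟨z + z', ?_, by rw [map_add]; exact add_mem hz hz'⟩
    rw [map_add, map_add, ← h, ← h']
    change ((z : LaurentSeries (KI A)) + z') * _ = _
    rw [add_mul]
  smul_mem' := by
    rintro a f ⟨z, h, hz⟩
    refine ⟨algebraMap (KI A) (F0 (KI A) N) a * z, ?_, ?_⟩
    · change (algebraMap (KI A) (LaurentSeries (KI A)) a * (z : LaurentSeries (KI A))) * _ = _
      rw [mul_assoc, h, algebraMap_laurent, PowerSeries.smul_eq_C_mul, map_mul, map_mul,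
        PowerSeries.map_C, HahnSeries.ofPowerSeries_C]
      rfl
    · rw [map_mul]
      have : liftF (algebraMap (KI A) Qb) N (algebraMap (KI A) (F0 (KI A) N) a) =
          algebraMap Qb (F0 Qb N) (algebraMap (KI A) Qb a) := by
        apply Subtype.ext
        rw [coe_liftF]
        change coeffMap _ (algebraMap (KI A) (LaurentSeries (KI A)) a) =
          algebraMap Qb (LaurentSeries Qb) _
        rw [algebraMap_laurent, algebraMap_laurent, HahnSeries.C_apply, HahnSeries.C_apply]
        exact coeffMap_single _ _ _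
      rw [this, ← Algebra.smul_def]
      exact Submodule.smul_mem _ _ hz

variable {A} {H : HauptFn p κ} {hp : p ∣ N} {c : ℕ}

theorem mem_L0 {i : ℕ} {f : PowerSeries (O0 A)} : f ∈ L0 A H hp c i ↔
    ∃ z : F0 (KI A) N, (z : LaurentSeries (KI A)) * xs (KI A) ^ (c * i) =
      HahnSeries.ofPowerSeries ℤ (KI A) (PowerSeries.map (algebraMap (O0 A) (KI A)) f) ∧
    liftF (algebraMap (KI A) Qb) N z ∈
      riemannRochSpace (i • (c • pol (K := Qb) (tF H hp))) := Iff.rfl

theorem one_mem_L0 : (1 : PowerSeries (O0 A)) ∈ L0 A H hp c 0 := by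
  refine ⟨1, ?_, ?_⟩
  · rw [map_one, map_one, mul_zero, pow_zero, mul_one]
    rfl
  · rw [map_one, zero_smul, mem_L' one_ne_zero]
    intro v
    rw [v.ord_one]
    simp

theorem mul_mem_L0 {i j : ℕ} {f g : PowerSeries (O0 A)} (hf : f ∈ L0 A H hp c i)
    (hg : g ∈ L0 A H hp c j) : f * g ∈ L0 A H hp c (i + j) := by
  obtain ⟨z, h, hz⟩ := hf
  obtain ⟨z', h', hz'⟩ := hg
  refine ⟨z * z', ?_, ?_⟩
  · rw [map_mul, map_mul, ← h, ← h']
    change ((z : LaurentSeries (KI A)) * z') * _ = _
    ring
  · rw [map_mul, add_smul]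
    exact mul_mem_L hz hz'

theorem sat_L0 {π : O0 A} (hπ : π ≠ 0) {i : ℕ} {f : PowerSeries (O0 A)}
    (hf : PowerSeries.C π * f ∈ L0 A H hp c i) : f ∈ L0 A H hp c i := by
  obtain ⟨z, h, hz⟩ := hf
  have hπ' : algebraMap (O0 A) (KI A) π ≠ 0 := fun h0 => hπ (Subtype.ext h0)
  set b : KI A := (algebraMap (O0 A) (KI A) π)⁻¹ with hb
  refine ⟨algebraMap (KI A) (F0 (KI A) N) b * z, ?_, ?_⟩
  · change (algebraMap (KI A) (LaurentSeries (KI A)) b * (z : LaurentSeries (KI A))) * _ = _
    rw [mul_assoc, h, algebraMap_laurent, map_mul, map_mul, PowerSeries.map_C,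
      HahnSeries.ofPowerSeries_C, ← mul_assoc, ← map_mul, hb, inv_mul_cancel₀ hπ', map_one,
      one_mul]
  · rw [map_mul]
    have : liftF (algebraMap (KI A) Qb) N (algebraMap (KI A) (F0 (KI A) N) b) =
        algebraMap Qb (F0 Qb N) (algebraMap (KI A) Qb b) := by
      apply Subtype.ext
      rw [coe_liftF]
      change coeffMap _ (algebraMap (KI A) (LaurentSeries (KI A)) b) =
        algebraMap Qb (LaurentSeries Qb) _
      rw [algebraMap_laurent, algebraMap_laurent, HahnSeries.C_apply, HahnSeries.C_apply]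
      exact coeffMap_single _ _ _
    rw [this, ← Algebra.smul_def]
    exact Submodule.smul_mem _ _ hz

theorem coeff_of_eq {K : Type*} [Field K] {y : LaurentSeries K} {f : PowerSeries K} {n : ℕ}
    (h : y * xs K ^ n = HahnSeries.ofPowerSeries ℤ K f) (j : ℤ) :
    y.coeff j = if 0 ≤ j + n then PowerSeries.coeff (j + n).toNat f else 0 := by
  have h1 : xs K ^ n = HahnSeries.single (n : ℤ) (1 : K) := by
    rw [xs, ← map_pow, HahnSeries.ofPowerSeries_X_pow]
  rw [h1] at h
  have h2 : (y * HahnSeries.single (n : ℤ) (1 : K)).coeff (j + n) = y.coeff j := by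
    rw [HahnSeries.coeff_mul_single_add, mul_one]
  rw [← h2, h]
  split_ifs with h3
  · obtain ⟨m, hm⟩ := Int.eq_ofNat_of_zero_le h3
    rw [hm, HahnSeries.ofPowerSeries_apply_coeff]
    rfl
  · exact ModularCurve.ofPowerSeries_coeff_of_neg _ (not_le.mp h3)

theorem fg_L0 [IsNoetherianRing (O0 A)] (i : ℕ) : (L0 A H hp c i).FG := by
  have hfd : FiniteDimensional Qb (riemannRochSpace (i • (c • pol (K := Qb) (tF H hp)))) :=
    (sep_tF H hp).fd_L _
  obtain ⟨T, hT⟩ := exists_bound_coeff (K := Qb) (F := F0 Qb N)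
    (algebraMap (F0 Qb N) (LaurentSeries Qb)) (fun a => algebraMap_laurent Qb a)
    (riemannRochSpace (i • (c • pol (K := Qb) (tF H hp))))
  let φ : L0 A H hp c i →ₗ[O0 A] (Fin (T + c * i) → O0 A) :=
    { toFun := fun f j => PowerSeries.coeff (j : ℕ) (f : PowerSeries (O0 A))
      map_add' := fun f g => by
        funext j
        change PowerSeries.coeff _ ((f : PowerSeries (O0 A)) + (g : PowerSeries (O0 A))) = _
        rw [map_add]
        rfl
      map_smul' := fun a f => by
        funext j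
        change PowerSeries.coeff _ (a • (f : PowerSeries (O0 A))) = _
        rw [map_smul]
        rfl }
  have hφ : Function.Injective φ := by
    rw [injective_iff_map_eq_zero]
    rintro ⟨f, z, hzf, hz⟩ hf
    have h1 : ∀ j : ℕ, j < T + c * i → PowerSeries.coeff j f = 0 := fun j hj =>
      congrFun hf ⟨j, hj⟩
    have h2 : liftF (algebraMap (KI A) Qb) N z = 0 := by
      refine hT _ hz fun n hn => ?_
      change ((liftF (algebraMap (KI A) Qb) N z : F0 Qb N) : LaurentSeries Qb).coeff n = 0
      rw [coe_liftF, coeffMap_coeff, coeff_of_eq hzf]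
      split_ifs with h3
      · rw [PowerSeries.coeff_map, h1 _ (by omega), map_zero, map_zero]
      · rw [map_zero]
    have hz0 : z = 0 := (map_eq_zero_iff _ (liftF (algebraMap (KI A) Qb) N).injective).mp h2
    apply Subtype.ext
    change f = 0
    rw [hz0] at hzf
    have h3 : HahnSeries.ofPowerSeries ℤ (KI A)
        (PowerSeries.map (algebraMap (O0 A) (KI A)) f) = 0 := by
      rw [← hzf]
      change (0 : LaurentSeries (KI A)) * _ = 0
      rw [zero_mul]
    have h4 : PowerSeries.map (algebraMap (O0 A) (KI A)) f = 0 :=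
      HahnSeries.ofPowerSeries_injective (by rw [h3, map_zero])
    refine PowerSeries.ext fun n => ?_
    have h5 := congrArg (PowerSeries.coeff n) h4
    rw [PowerSeries.coeff_map, map_zero] at h5
    rw [map_zero]
    exact Subtype.ext h5
  have h1 : IsNoetherian (O0 A) (L0 A H hp c i) := isNoetherian_of_injective φ hφ
  exact Module.Finite.iff_fg.mp inferInstance

/-- the reduction of series with integral coefficients -/
theorem gAR_of_eq {y : LaurentSeries Qb} {f : PowerSeries A} {n : ℕ}
    (h : y * xs Qb ^ n = HahnSeries.ofPowerSeries ℤ Qb (PowerSeries.map A.subtype f)) :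
    ∃ hy : y ∈ gA A, gAR ⟨y, hy⟩ * xs (ResidueField A) ^ n =
      HahnSeries.ofPowerSeries ℤ (ResidueField A) (PowerSeries.map (residue A) f) := by
  have hx : lA A (HahnSeries.ofPowerSeries ℤ A (PowerSeries.X ^ n)) = xs Qb ^ n := by
    rw [lA, ← ofPowerSeries_map, map_pow, PowerSeries.map_X, xs, map_pow]
  have hx' : lK A (HahnSeries.ofPowerSeries ℤ A (PowerSeries.X ^ n)) =
      xs (ResidueField A) ^ n := by
    rw [lK, ← ofPowerSeries_map, map_pow, PowerSeries.map_X, xs, map_pow]
  have hb : lK A (HahnSeries.ofPowerSeries ℤ A (PowerSeries.X ^ n)) ≠ 0 := by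
    rw [hx']
    exact pow_ne_zero _ xs_ne
  have h1 : lA A (HahnSeries.ofPowerSeries ℤ A (PowerSeries.X ^ n)) * y =
      lA A (HahnSeries.ofPowerSeries ℤ A f) := by
    rw [hx, mul_comm, h, lA, ← ofPowerSeries_map]
  refine ⟨⟨_, _, hb, h1⟩, ?_⟩
  rw [gAR_eq (x := ⟨y, ⟨_, _, hb, h1⟩⟩) hb h1, ← hx', div_mul_cancel₀ _ hb, lK,
    ← ofPowerSeries_map]

theorem lift_eq {z : F0 (KI A) N} {f : PowerSeries (O0 A)} {n : ℕ}
    (h : (z : LaurentSeries (KI A)) * xs (KI A) ^ n =
      HahnSeries.ofPowerSeries ℤ (KI A) (PowerSeries.map (algebraMap (O0 A) (KI A)) f)) :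
    ((liftF (algebraMap (KI A) Qb) N z : F0 Qb N) : LaurentSeries Qb) * xs Qb ^ n =
      HahnSeries.ofPowerSeries ℤ Qb (PowerSeries.map A.subtype (PowerSeries.map subA f)) := by
  have h1 := congrArg (coeffMap (algebraMap (KI A) Qb)) h
  rw [map_mul, map_pow, ← ofPowerSeries_map] at h1
  have h2 : coeffMap (algebraMap (KI A) Qb) (xs (KI A)) = xs Qb := by
    rw [xs, ← ofPowerSeries_map, PowerSeries.map_X, xs]
  rw [coe_liftF, ← h2, h1]
  congr 1

theorem map_red0 (f : PowerSeries (O0 A)) :
    PowerSeries.map (residue A) (PowerSeries.map subA f) = PowerSeries.map (red0 A) f := rfl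

variable {d : ℕ} {e : Fin d → F0 Qb N}
  (h : Pre (residue A) (W0 A N) (ρ0 A N) (tF H hp) (tS (ResidueField A) p κ) e)

/-- Reductions of sections. -/
theorem red_L0 [IsAlgClosed (ResidueField A)] {i : ℕ} {f : PowerSeries (O0 A)}
    (hf : f ∈ L0 A H hp c i) :
    PowerSeries.map (red0 A) f ∈ Lv (c • pol (K := ResidueField A) h.tbb) c i := by
  obtain ⟨z, hzf, hz⟩ := hf
  obtain ⟨hW, hρ⟩ := gAR_of_eq (lift_eq hzf)
  rw [map_red0] at hρ
  let w : W0 A N := ⟨liftF (algebraMap (KI A) Qb) N z, hW⟩
  refine ⟨h.ρb w, ?_, hρ⟩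
  rw [smul_smul] at hz ⊢
  exact h.red.int (sep_tF H hp) (sep_tbb h) (i * c) w hz

end

end Fermat.Agent.Lf
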