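import Mathlib
import Fermat.Agent.Lf.Level0

/-!
Lifting of sections; the place at infinity.
-/

set_option autoImplicit false
set_option linter.unusedSectionVars false

noncomputable section

namespace Fermat.Agent.Lf

open AlgebraicCurve IsDedekindDomain IntermediateField WithZero Module Fermat.Agent.FunField
open Polynomial (aeval)
open Fermat.Agent.LG Fermat.Agent.ModFun Fermat.Agent.Geo Fermat.Agent.Flat
open Fermat.Agent.ESCore (HauptFn haupt2 haupt3 ιC)
open IsLocalRing ModularCurve

/-- The field of algebraic numbers. -/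
local notation "Qb" => AlgebraicClosure ℚ

theorem order_tS {K : Type*} [Field K] (p : ℕ) [Fact p.Prime] (κ : ℤ) :
    (tS K p κ).order = -1 := by
  have h1 : (tS K p κ).coeff (-1) ≠ 0 := by
    rw [coeff_tS_neg_one]; exact one_ne_zero
  refine le_antisymm (HahnSeries.order_le_of_coeff_ne_zero h1) ?_
  by_contra hlt
  rw [not_le] at hlt
  have h2 : tS K p κ ≠ 0 := by
    intro h0
    rw [h0, HahnSeries.coeff_zero] at h1
    exact h1 rfl
  exact h2 (HahnSeries.coeff_order_eq_zero.mp (coeff_tS_of_lt hlt))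

/-- the unit part of the expansion of `t` -/
def tU (R : Type*) [CommRing R] (p : ℕ) [NeZero p] (κ : ℤ) : PowerSeries R :=
  PowerSeries.map (Int.castRingHom R) (Fermat.Agent.ESCore.TWi p κ)

theorem map_tU {R S : Type*} [CommRing R] [CommRing S] (f : R →+* S) (p : ℕ) [NeZero p]
    (κ : ℤ) : PowerSeries.map f (tU R p κ) = tU S p κ := by
  ext n
  rw [tU, tU, PowerSeries.coeff_map, PowerSeries.coeff_map, PowerSeries.coeff_map]
  simp

theorem tS_mul_xs (K : Type*) [Field K] (p : ℕ) [NeZero p] (κ : ℤ) :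
    tS K p κ * xs K = HahnSeries.ofPowerSeries ℤ K (tU K p κ) := by
  have h1 : tZ p κ * HahnSeries.single (1 : ℤ) (1 : ℤ) =
      HahnSeries.ofPowerSeries ℤ ℤ (Fermat.Agent.ESCore.TWi p κ) := by
    have h3 : (HahnSeries.single (-1 : ℤ) (1 : ℤ) : LaurentSeries ℤ) *
        HahnSeries.single (1 : ℤ) (1 : ℤ) = 1 := by
      rw [HahnSeries.single_mul_single]
      simp
    rw [tZ, mul_right_comm, h3, one_mul]
  have h2 := congrArg (ModularCurve.coeffMap (Int.castRingHom K)) h1
  rw [map_mul, ← ofPowerSeries_map] at h2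
  have h4 : ModularCurve.coeffMap (Int.castRingHom K) (HahnSeries.single (1 : ℤ) (1 : ℤ)) =
      xs K := by
    rw [xs_eq, coeffMap_single]
    simp
  rw [h4] at h2
  exact h2

section

variable {A : ValuationSubring Qb} {q : ℕ} {p : ℕ} [Fact p.Prime] {κ : ℤ} {N : ℕ} [NeZero N]
  {H : HauptFn p κ} {hp : p ∣ N}

/-- The lifting property, for any presentation of the reduction. -/
theorem exists_lift_level (hq : q.Prime) (hA : A.LiesOverPrime q) (hqN : ¬ q ∣ N)
    {S : Set ℤ} {k : ℕ} {P : Polynomial ℤ} (hH : HautData H S k P)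
    (hS : ∀ c ∈ S, ∀ c' ∈ S, c ≠ c' → IsUnit ((c - c' : ℤ) : A.comap (algebraMap (KI A) Qb)))
    {d : ℕ} {e : Fin d → F0 Qb N}
    (h : Pre (residue A) (W0 A N) (ρ0 A N) (tF H hp) (tS (ResidueField A) p κ) e) :
      ∃ M : ℕ, ∀ n ≥ M, ∀ zb ∈ riemannRochSpace (n • pol (K := ResidueField A) h.tbb),
        ∃ z : W0 A N, (z : F0 Qb N) ∈ riemannRochSpace (n • pol (K := Qb) (tF H hp)) ∧
          h.ρb z = zb ∧ ∃ zL : F0 (KI A) N, (z : F0 Qb N) = liftF (algebraMap (KI A) Qb) N zL ∧
            ∃ P : PowerSeries (A.comap (algebraMap (KI A) Qb)),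
              (tS (KI A) p κ)⁻¹ ^ n * (zL : LaurentSeries (KI A)) =
                toL (A.comap (algebraMap (KI A) Qb)) (KI A) (HahnSeries.ofPowerSeries ℤ _ P) := by
  obtain ⟨d', e', h', M, hM⟩ := lift_of_level2 hq hA hqN hp hH hS
  exact ⟨M, hM⟩

variable {d : ℕ} {e : Fin d → F0 Qb N}
  (h : Pre (residue A) (W0 A N) (ρ0 A N) (tF H hp) (tS (ResidueField A) p κ) e)

/-- The place at infinity. -/
theorem exists_inf : ∃ v₀ : Place (ResidueField A) h.Fb,
    (∀ z : h.Fb, z ≠ 0 → v₀.ord z = (z : LaurentSeries (ResidueField A)).order) := by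
  have htb : (h.tbb : LaurentSeries (ResidueField A)) = tS (ResidueField A) p κ := rfl
  have htb0 : h.tbb ≠ 0 := h.red.tb_ne
  refine exists_place_of_val (K := ResidueField A) (F := h.Fb)
    (fun z => (z : LaurentSeries (ResidueField A)).order) ?_ ?_ ?_ (u := h.tbb⁻¹)
    (inv_ne_zero htb0) ?_
  · intro x y hx hy
    exact HahnSeries.order_mul (fun h => hx (Subtype.ext h)) (fun h => hy (Subtype.ext h))
  · intro x y hx hy hxy
    exact HahnSeries.min_order_le_order_add fun h => hxy (Subtype.ext h)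
  · intro a ha
    change (algebraMap (ResidueField A) (LaurentSeries (ResidueField A)) a).order = 0
    rw [algebraMap_laurent]
    exact HahnSeries.order_C
  · change ((h.tbb : LaurentSeries (ResidueField A))⁻¹).order = 1
    have h0 : tS (ResidueField A) p κ ≠ 0 := by
      intro h0
      have := coeff_tS_neg_one (R := ResidueField A) (p := p) (κ := κ)
      rw [h0, HahnSeries.coeff_zero] at this
      exact zero_ne_one this
    have h1 : (tS (ResidueField A) p κ).order + (tS (ResidueField A) p κ)⁻¹.order = 0 := by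
      rw [← HahnSeries.order_mul h0 (inv_ne_zero h0), mul_inv_cancel₀ h0, HahnSeries.order_one]
    rw [htb]
    rw [order_tS] at h1
    omega

theorem toL_ofPowerSeries {O L : Type*} [CommRing O] [IsDomain O] [IsDiscreteValuationRing O]
    [Field L] [Algebra O L] [IsFractionRing O L] (P : PowerSeries O) :
    toL O L (HahnSeries.ofPowerSeries ℤ O P) =
      HahnSeries.ofPowerSeries ℤ L (PowerSeries.map (algebraMap O L) P) := by
  rw [ofPowerSeries_map, toL]

/-- **Lifting of sections.** -/
theorem lift_L0 (hq : q.Prime) (hA : A.LiesOverPrime q) [IsAlgClosed (ResidueField A)]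
    [IsDiscreteValuationRing (O0 A)] {M : ℕ}
    (hM : ∀ n ≥ M, ∀ zb ∈ riemannRochSpace (n • pol (K := ResidueField A) h.tbb),
        ∃ z : W0 A N, (z : F0 Qb N) ∈ riemannRochSpace (n • pol (K := Qb) (tF H hp)) ∧
          h.ρb z = zb ∧ ∃ zL : F0 (KI A) N, (z : F0 Qb N) = liftF (algebraMap (KI A) Qb) N zL ∧
            ∃ P : PowerSeries (A.comap (algebraMap (KI A) Qb)),
              (tS (KI A) p κ)⁻¹ ^ n * (zL : LaurentSeries (KI A)) =
                toL (A.comap (algebraMap (KI A) Qb)) (KI A) (HahnSeries.ofPowerSeries ℤ _ P))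
    {c : ℕ} (hcM : M ≤ c) {i : ℕ} {fb : PowerSeries (ResidueField A)}
    (hfb : fb ∈ Lv (c • pol (K := ResidueField A) h.tbb) c i) :
    ∃ f ∈ L0 A H hp c i, PowerSeries.map (red0 A) f = fb := by
  obtain ⟨zb, hzb, hzbf⟩ := hfb
  rcases Nat.eq_zero_or_pos i with rfl | hi
  · -- constants
    obtain ⟨a, ha⟩ := (sep_tbb h).const (z := zb) fun v => by
      by_cases h0 : zb = 0
      · rw [h0, v.ord_zero]
      have := (mem_L' h0).mp hzb v
      rw [zero_smul] at this
      simpa using this
    obtain ⟨a₀, ha₀⟩ := residueComp_surjective hq hA le_rfl a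
    refine ⟨PowerSeries.C a₀, ⟨algebraMap (KI A) (F0 (KI A) N) (algebraMap (O0 A) (KI A) a₀),
      ?_, ?_⟩, ?_⟩
    · change algebraMap (KI A) (LaurentSeries (KI A)) _ * _ = _
      rw [algebraMap_laurent, mul_zero, pow_zero, mul_one, PowerSeries.map_C,
        HahnSeries.ofPowerSeries_C]
    · have h3 : liftF (algebraMap (KI A) Qb) N (algebraMap (KI A) (F0 (KI A) N)
          (algebraMap (O0 A) (KI A) a₀)) =
          algebraMap Qb (F0 Qb N) (algebraMap (KI A) Qb (algebraMap (O0 A) (KI A) a₀)) := by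
        apply Subtype.ext
        rw [coe_liftF]
        change coeffMap _ (algebraMap (KI A) (LaurentSeries (KI A)) _) =
          algebraMap Qb (LaurentSeries Qb) _
        rw [algebraMap_laurent, algebraMap_laurent, HahnSeries.C_apply, HahnSeries.C_apply]
        exact coeffMap_single _ _ _
      rw [h3, zero_smul, mem_L]
      intro v
      right
      rw [ord_algebraMap]
      simp
    · apply HahnSeries.ofPowerSeries_injective (Γ := ℤ)
      rw [← hzbf, mul_zero, pow_zero, mul_one, ← ha, PowerSeries.map_C,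
        HahnSeries.ofPowerSeries_C]
      change HahnSeries.C (red0 A a₀) = algebraMap (ResidueField A)
        (LaurentSeries (ResidueField A)) a
      rw [algebraMap_laurent, ← ha₀]
      rfl
  · have hn : M ≤ c * i := hcM.trans (Nat.le_mul_of_pos_right _ hi)
    rw [smul_smul, mul_comm i c] at hzb
    obtain ⟨z, hz1, hz2, zL, hzL, P, hP⟩ := hM _ hn zb hzb
    have hf : (zL : LaurentSeries (KI A)) * xs (KI A) ^ (c * i) =
        HahnSeries.ofPowerSeries ℤ (KI A) (PowerSeries.map (algebraMap (O0 A) (KI A))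
          (tU (O0 A) p κ ^ (c * i) * P)) := by
      have h0 : tS (KI A) p κ ≠ 0 := by
        intro h0
        have := coeff_tS_neg_one (R := KI A) (p := p) (κ := κ)
        rw [h0, HahnSeries.coeff_zero] at this
        exact zero_ne_one this
      have h4 : (zL : LaurentSeries (KI A)) = tS (KI A) p κ ^ (c * i) *
          ((tS (KI A) p κ)⁻¹ ^ (c * i) * (zL : LaurentSeries (KI A))) := by
        rw [← mul_assoc, ← mul_pow, mul_inv_cancel₀ h0, one_pow, one_mul]
      rw [h4, hP, toL_ofPowerSeries, map_mul, map_mul, map_pow, map_pow, map_tU, ← tS_mul_xs]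
      ring
    refine ⟨tU (O0 A) p κ ^ (c * i) * P, ⟨zL, hf, ?_⟩, ?_⟩
    · rw [← hzL, smul_smul, mul_comm i c]
      exact hz1
    · obtain ⟨hW, hρ⟩ := gAR_of_eq (lift_eq hf)
      rw [map_red0] at hρ
      apply HahnSeries.ofPowerSeries_injective (Γ := ℤ)
      rw [← hρ, ← hzbf, ← hz2]
      congr 1
      change _ = ρ0 A N z
      rw [ρ0_apply]
      congr 1
      exact Subtype.ext (congrArg (fun w : F0 Qb N => (w : LaurentSeries Qb)) hzL).symm

/-- **The system modulo the uniformizer is the reduction of the lattices.** -/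
theorem red_iff (hq : q.Prime) (hA : A.LiesOverPrime q) [IsAlgClosed (ResidueField A)]
    [IsDiscreteValuationRing (O0 A)] {M : ℕ}
    (hM : ∀ n ≥ M, ∀ zb ∈ riemannRochSpace (n • pol (K := ResidueField A) h.tbb),
        ∃ z : W0 A N, (z : F0 Qb N) ∈ riemannRochSpace (n • pol (K := Qb) (tF H hp)) ∧
          h.ρb z = zb ∧ ∃ zL : F0 (KI A) N, (z : F0 Qb N) = liftF (algebraMap (KI A) Qb) N zL ∧
            ∃ P : PowerSeries (A.comap (algebraMap (KI A) Qb)),
              (tS (KI A) p κ)⁻¹ ^ n * (zL : LaurentSeries (KI A)) =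
                toL (A.comap (algebraMap (KI A) Qb)) (KI A) (HahnSeries.ofPowerSeries ℤ _ P))
    {c : ℕ} (hcM : M ≤ c) (i : ℕ) (fb : PowerSeries (ResidueField A)) :
    fb ∈ Lv (c • pol (K := ResidueField A) h.tbb) c i ↔
      ∃ f ∈ L0 A H hp c i, PowerSeries.map (red0 A) f = fb := by
  constructor
  · exact lift_L0 h hq hA hM hcM
  · rintro ⟨f, hf, rfl⟩
    exact red_L0 h hf

end

end Fermat.Agent.Lf
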