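import Mathlib
import Fermat.Agent.Lf.Level1
import Fermat.Agent.CD.BigPlace2
import Fermat.Agent.CD.PsComplete

/-!
Transfer of sections to the big field.
-/

set_option autoImplicit false
set_option linter.unusedSectionVars false

noncomputable section

namespace Fermat.Agent.Lf

open AlgebraicCurve IsDedekindDomain IntermediateField WithZero Module Fermat.Agent.FunField
open Polynomial (aeval)
open Fermat.Agent.LG Fermat.Agent.ModFun Fermat.Agent.Geo Fermat.Agent.Flat
open Fermat.Agent.ESCore (HauptFn haupt2 haupt3 ιC)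
open IsLocalRing ModularCurve

/-- The field of algebraic numbers. -/
local notation "Qb" => AlgebraicClosure ℚ

section Transfer

variable {K K' F F' : Type*} [Field K] [Field K'] [Field F] [Field F'] [Algebra K F]
  [Algebra K' F']

theorem reg_transfer (φ : K →+* K') (Φ : F →+* F')
    (hΦ : ∀ a, Φ (algebraMap K F a) = algebraMap K' F' (φ a)) {t z : F} (h : Sep K t)
    (hz : Reg K t z) : Reg K' (Φ t) (Φ z) := by
  obtain ⟨p, hp, hpz⟩ := exists_monic_of_isIntegral (h.isIntegral hz)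
  intro v hv
  refine ord_nonneg_of_isIntegral (t := Φ t) ?_ v hv
  refine isIntegral_of_monic (Φ.comp ((aeval t : Polynomial K →ₐ[K] F) : Polynomial K →+* F))
    (fun P => ?_) hp ?_
  · have h1 : (Φ.comp ((aeval t : Polynomial K →ₐ[K] F) : Polynomial K →+* F)) P =
        aeval (Φ t) (P.map φ) := by
      rw [RingHom.comp_apply, AlgHom.coe_toRingHom, Polynomial.aeval_def, Polynomial.hom_eval₂,
        Polynomial.aeval_def, Polynomial.eval₂_map]
      congr 1
      exact RingHom.ext hΦ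
    rw [h1]
    exact Polynomial.aeval_mem_adjoin_singleton K' (Φ t)
  · rw [← Polynomial.hom_eval₂, hpz, map_zero]

theorem mem_nL_transfer [IsAlgClosed K] [IsAlgClosed K'] (φ : K →+* K') (Φ : F →+* F')
    (hΦ : ∀ a, Φ (algebraMap K F a) = algebraMap K' F' (φ a)) {t z : F} (h : Sep K t)
    (h' : Sep K' (Φ t)) {n : ℕ} (hz : z ∈ riemannRochSpace (n • pol (K := K) t)) :
    Φ z ∈ riemannRochSpace (n • pol (K := K') (Φ t)) := by
  rw [mem_nL_iff h] at hz
  rw [mem_nL_iff h']
  refine ⟨reg_transfer φ Φ hΦ h hz.1, ?_⟩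
  have := reg_transfer φ Φ hΦ h.inv hz.2
  rwa [map_mul, map_pow, map_inv₀] at this

end Transfer

section Om

variable {Ω : Type} [Field Ω] [IsAlgClosed Ω] {p : ℕ} [Fact p.Prime] {κ : ℤ} {N : ℕ} [NeZero N]

/-- The parameter over a general field. -/
def tΩ (ι : Ω →+* ℂ) (H : HauptFn p κ) (hp : p ∣ N) : F0 Ω N := ⟨tS Ω p κ, tS_mem_F0 H ι hp⟩

theorem trans_tΩ (ι : Ω →+* ℂ) (H : HauptFn p κ) (hp : p ∣ N) :
    Transcendental Ω (tΩ ι H hp) := by
  rw [transcendental_iff]
  intro P hP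
  have h1 := congrArg (F0 Ω N).val hP
  rw [← Polynomial.aeval_algHom_apply, map_zero] at h1
  change aeval (tS Ω p κ) P = 0 at h1
  exact (aeval_eq_zero_iff trans_tS).mp h1

theorem sep_tΩ (ι : Ω →+* ℂ) (H : HauptFn p κ) (hp : p ∣ N) : Sep Ω (tΩ ι H hp) := by
  have : CharZero Ω := RingHom.charZero ι
  obtain ⟨ζ, hζ⟩ := exists_zetaΩ ι N
  have := finiteDimensional_F0 (K := Ω) (N := N) hζ
  have hfd : FiniteDimensional Ω⟮tΩ ι H hp⟯ (F0 Ω N) :=
    finiteDimensional_adjoin (transcendental_jF (K := Ω) (N := N)) (trans_tΩ ι H hp)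
  exact ⟨trans_tΩ ι H hp, hfd, inferInstance⟩

end Om

section Big

variable {A : ValuationSubring Qb} {q : ℕ} (P : CD.BigPlace A q) {p : ℕ} [Fact p.Prime] {κ : ℤ}
  {N : ℕ} [NeZero N] {H : HauptFn p κ} {hp : p ∣ N}

theorem liftF_algebraMap {K Ω : Type} [Field K] [Field Ω] (f : K →+* Ω) (a : K) :
    liftF f N (algebraMap K (F0 K N) a) = algebraMap Ω (F0 Ω N) (f a) := by
  apply Subtype.ext
  rw [coe_liftF]
  change coeffMap _ (algebraMap K (LaurentSeries K) a) = algebraMap Ω (LaurentSeries Ω) _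
  rw [algebraMap_laurent, algebraMap_laurent, HahnSeries.C_apply, HahnSeries.C_apply]
  exact coeffMap_single _ _ _

theorem liftF_tF (H : HauptFn p κ) (hp : p ∣ N) :
    liftF P.ψ N (tF H hp) = tΩ P.ι H hp := by
  apply Subtype.ext
  rw [coe_liftF]
  exact coeffMap_tS _ p κ

theorem mem_nL_Ω {n : ℕ} {z : F0 Qb N} (hz : z ∈ riemannRochSpace (n • pol (K := Qb) (tF H hp))) :
    liftF P.ψ N z ∈ riemannRochSpace (n • pol (K := P.Ω) (tΩ P.ι H hp)) := by
  rw [← liftF_tF P H hp]
  refine mem_nL_transfer P.ψ (liftF P.ψ N) (liftF_algebraMap P.ψ) (sep_tF H hp) ?_ hz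
  rw [liftF_tF]
  exact sep_tΩ P.ι H hp

theorem lift_eqΩ {K Ω : Type} [Field K] [Field Ω] (f : K →+* Ω) {z : F0 K N}
    {g : PowerSeries K} {n : ℕ}
    (h : (z : LaurentSeries K) * xs K ^ n = HahnSeries.ofPowerSeries ℤ K g) :
    (liftF f N z : LaurentSeries Ω) * xs Ω ^ n =
      HahnSeries.ofPowerSeries ℤ Ω (PowerSeries.map f g) := by
  have h1 := congrArg (coeffMap f) h
  rw [map_mul, map_pow, ← ofPowerSeries_map] at h1
  have h2 : coeffMap f (xs K) = xs Ω := by
    rw [xs, ← ofPowerSeries_map, PowerSeries.map_X, xs]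
  rw [coe_liftF, ← h2, h1]

/-- **Sections over the complete ring give sections over the big field.** -/
theorem exists_of_ext {c i : ℕ} {f : PowerSeries P.O} (hf : f ∈ ext P.inc (L0 A H hp c i)) :
    ∃ z : F0 P.Ω N, z ∈ riemannRochSpace (i • (c • pol (K := P.Ω) (tΩ P.ι H hp))) ∧
      (z : LaurentSeries P.Ω) * xs P.Ω ^ (c * i) =
        HahnSeries.ofPowerSeries ℤ P.Ω (PowerSeries.map P.j f) := by
  induction hf using Submodule.span_induction with
  | mem x hx =>
    obtain ⟨g, ⟨z, hzg, hz⟩, rfl⟩ := hx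
    refine ⟨liftF P.ψ N (liftF (algebraMap (KI A) Qb) N z), ?_, ?_⟩
    · rw [smul_smul] at hz ⊢
      exact mem_nL_Ω P hz
    · rw [lift_eqΩ P.ψ (lift_eqΩ _ hzg)]
      congr 1
      ext n
      rw [PowerSeries.coeff_map, PowerSeries.coeff_map, PowerSeries.coeff_map,
        PowerSeries.coeff_map, PowerSeries.coeff_map]
      exact (P.j_inc _).symm
  | zero =>
    refine ⟨0, zero_mem _, ?_⟩
    rw [map_zero, map_zero]
    change (0 : LaurentSeries P.Ω) * _ = 0
    rw [zero_mul]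
  | add x y _ _ hx hy =>
    obtain ⟨z, hz, hzx⟩ := hx
    obtain ⟨z', hz', hzx'⟩ := hy
    refine ⟨z + z', add_mem hz hz', ?_⟩
    rw [map_add, map_add, ← hzx, ← hzx']
    change ((z : LaurentSeries P.Ω) + z') * _ = _
    rw [add_mul]
  | smul a x _ hx =>
    obtain ⟨z, hz, hzx⟩ := hx
    refine ⟨P.j a • z, Submodule.smul_mem _ _ hz, ?_⟩
    rw [IntermediateField.coe_smul, Algebra.smul_def, algebraMap_laurent, mul_assoc, hzx,
      PowerSeries.smul_eq_C_mul, map_mul, map_mul, PowerSeries.map_C,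
      HahnSeries.ofPowerSeries_C]

/-- the completion -/
theorem cpl (hq : q.Prime) (hA : A.LiesOverPrime q) :
    Cpl ((q : ℕ) : O0 A) P.inc (red0 A) P.red where
  red_inc a := P.red_inc a
  surj₀ := residueComp_surjective hq hA le_rfl
  ker₀ a := CD.residue_subA hq hA a
  ker x := P.red_ker x
  nzd x hx := (mul_eq_zero.mp hx).resolve_left P.irr.ne_zero
  ne := fun h => P.irr.ne_zero (by rw [h, map_zero])

end Big

end Fermat.Agent.Lf
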