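import Mathlib
import Fermat.Agent.Lf.Transf

/-!
The core of the lifting theorem.
-/

set_option autoImplicit false
set_option linter.unusedSectionVars false

noncomputable section

namespace Fermat.Agent.Lf

open AlgebraicCurve IsDedekindDomain IntermediateField WithZero Module Fermat.Agent.FunField
open Polynomial (aeval)
open Fermat.Agent.LG Fermat.Agent.ModFun Fermat.Agent.Geo Fermat.Agent.Flat
open Fermat.Agent.ESCore (HauptFn haupt2 haupt3 ιC)
open IsLocalRing ModularCurve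

/-- The field of algebraic numbers. -/
local notation "Qb" => AlgebraicClosure ℚ

/-- From `PenB` to `Pair`. -/
theorem PenB.pair {k : Type*} [Field k] {Lb : ℕ → Submodule k (PowerSeries k)} {m d k₀ : ℕ}
    {mb₁ mb₂ : PowerSeries k} (h : PenB Lb m d k₀ mb₁ mb₂) :
    LRed.Pair (fun i => (Lb i : Set (PowerSeries k))) m d h.u₁.unit h.u₂.unit where
  mon j hj := h.prod j (m - j) (by omega)
  h1 e := by
    rintro ⟨s, hs⟩
    obtain ⟨e₁, e₂, s', h1, h2, h3⟩ := h.H1 e s (by
      have : 2 * d * s = (d + d) * s := by ring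
      rw [this]
      exact hs)
    exact ⟨e₁, e₂, ⟨s', h2⟩, ⟨s', h3⟩, h1⟩
  int f := by
    rintro ⟨s₁, h1⟩ ⟨s₂, h2⟩
    have e1 : mb₁ ^ m * (((h.u₁.unit⁻¹ : (PowerSeries k)ˣ) : PowerSeries k) ^ m * f) = f := by
      rw [← mul_assoc, ← mul_pow, IsUnit.mul_val_inv, one_pow, one_mul]
    have e2 : mb₂ ^ m * (((h.u₂.unit⁻¹ : (PowerSeries k)ˣ) : PowerSeries k) ^ m * f) = f := by
      rw [← mul_assoc, ← mul_pow, IsUnit.mul_val_inv, one_pow, one_mul]
    have h3 := h.IN (((h.u₁.unit⁻¹ : (PowerSeries k)ˣ) : PowerSeries k) ^ m * f)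
      (((h.u₂.unit⁻¹ : (PowerSeries k)ˣ) : PowerSeries k) ^ m * f) (s₁ + 1) (s₂ + 1)
      (by rw [pow_succ, mul_assoc, e1]; exact h1) (by rw [pow_succ, mul_assoc, e2]; exact h2)
      (by rw [e1, e2])
    rwa [e1] at h3

section Val

variable {K F : Type*} [Field K] [Field F] [Algebra K F]

/-- Orders of two coprime sections. -/
theorem min_ord_eq {t : F} (ht : FinOrd (K := K) t) (ht0 : t ≠ 0) {a b : F} (ha0 : a ≠ 0)
    (hb0 : b ≠ 0) {c d k₀ : ℕ} (ha : a ∈ riemannRochSpace (d • (c • pol (K := K) t)))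
    (hb : b ∈ riemannRochSpace (d • (c • pol (K := K) t)))
    (h1 : ∃ g ∈ riemannRochSpace (k₀ • (c • pol (K := K) t)),
      ∃ g' ∈ riemannRochSpace (k₀ • (c • pol (K := K) t)), 1 = a * g + b * g')
    (h2 : ∃ g ∈ riemannRochSpace (k₀ • (c • pol (K := K) t)),
      ∃ g' ∈ riemannRochSpace (k₀ • (c • pol (K := K) t)), t ^ (c * (k₀ + d)) = a * g + b * g')
    (v : Place K F) : min (v.ord a) (v.ord b) = -(d * (c * pol (K := K) t v)) := by
  have ha' := (mem_L' ha0).mp ha v
  have hb' := (mem_L' hb0).mp hb v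
  rw [Finsupp.smul_apply, Finsupp.smul_apply, nsmul_eq_mul, nsmul_eq_mul] at ha' hb'
  -- a general bound
  have key : ∀ (s : F), s ≠ 0 → (∃ g ∈ riemannRochSpace (k₀ • (c • pol (K := K) t)),
      ∃ g' ∈ riemannRochSpace (k₀ • (c • pol (K := K) t)), s = a * g + b * g') →
      min (v.ord a) (v.ord b) - k₀ * (c * pol (K := K) t v) ≤ v.ord s := by
    rintro s hs ⟨g, hg, g', hg', rfl⟩
    have hgo : ∀ g ∈ riemannRochSpace (k₀ • (c • pol (K := K) t)), g ≠ 0 →
        -(k₀ * (c * pol (K := K) t v)) ≤ v.ord g := by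
      intro g hg hg0
      have := (mem_L' hg0).mp hg v
      rwa [Finsupp.smul_apply, Finsupp.smul_apply, nsmul_eq_mul, nsmul_eq_mul] at this
    have hag : ∀ x g : F, x ≠ 0 → g ∈ riemannRochSpace (k₀ • (c • pol (K := K) t)) → g ≠ 0 →
        v.ord x - k₀ * (c * pol (K := K) t v) ≤ v.ord (x * g) := by
      intro x g hx hg hg0
      rw [v.ord_mul hx hg0]
      have := hgo g hg hg0
      linarith
    by_cases hg0 : g = 0
    · rw [hg0, mul_zero, zero_add] at hs ⊢
      have h3 := hag b g' hb0 hg' (right_ne_zero_of_mul hs)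
      exact (sub_le_sub_right (min_le_right _ _) _).trans h3
    by_cases hg'0 : g' = 0
    · rw [hg'0, mul_zero, add_zero] at hs ⊢
      have h3 := hag a g ha0 hg hg0
      exact (sub_le_sub_right (min_le_left _ _) _).trans h3
    rcases ord_add_le v hs with h3 | h3 | h3
    · refine le_trans ?_ h3
      rw [← min_sub_sub_right]
      exact min_le_min (hag a g ha0 hg hg0) (hag b g' hb0 hg' hg'0)
    · exact absurd h3 (mul_ne_zero ha0 hg0)
    · exact absurd h3 (mul_ne_zero hb0 hg'0)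
  refine le_antisymm ?_ (le_min ha' hb')
  rw [pol_apply ht] at *
  rcases le_or_gt 0 (v.ord t) with hv | hv
  · have e : max 0 (-v.ord t) = 0 := max_eq_left (by omega)
    have h3 := key 1 one_ne_zero h1
    rw [e, v.ord_one] at h3
    rw [e]
    simpa using h3
  · have e : max 0 (-v.ord t) = -v.ord t := max_eq_right (by omega)
    have h3 := key (t ^ (c * (k₀ + d))) (pow_ne_zero _ ht0) h2
    rw [e, ord_pow] at h3
    rw [e]
    push_cast at h3
    linarith

/-- Divisibility of orders. -/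
theorem dvd_ord {t : F} (ht : FinOrd (K := K) t) (ht0 : t ≠ 0) {a b : F} (ha0 : a ≠ 0)
    (hb0 : b ≠ 0) {c d k₀ : ℕ} (ha : a ∈ riemannRochSpace (d • (c • pol (K := K) t)))
    (hb : b ∈ riemannRochSpace (d • (c • pol (K := K) t)))
    (h1 : ∃ g ∈ riemannRochSpace (k₀ • (c • pol (K := K) t)),
      ∃ g' ∈ riemannRochSpace (k₀ • (c • pol (K := K) t)), 1 = a * g + b * g')
    (h2 : ∃ g ∈ riemannRochSpace (k₀ • (c • pol (K := K) t)),
      ∃ g' ∈ riemannRochSpace (k₀ • (c • pol (K := K) t)), t ^ (c * (k₀ + d)) = a * g + b * g')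
    {m : ℕ} (hm : 0 < m) (hmd : m ∣ d) {e : F} (he : e ^ m = a * b ^ (m - 1)) (v : Place K F) :
    (m : ℤ) ∣ v.ord a := by
  have h3 := min_ord_eq ht ht0 ha0 hb0 ha hb h1 h2 v
  obtain ⟨d', rfl⟩ := hmd
  have h4 : (m : ℤ) ∣ v.ord a - v.ord b := by
    have h5 := congrArg v.ord he
    rw [v.ord_mul ha0 (pow_ne_zero _ hb0), ord_pow, ord_pow, Nat.cast_sub (by omega),
      Nat.cast_one] at h5
    exact ⟨v.ord e - v.ord b, by linarith⟩
  have h6 : (m : ℤ) ∣ min (v.ord a) (v.ord b) := by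
    rw [h3]
    exact ⟨-(d' * (c * pol (K := K) t v)), by push_cast; ring⟩
  rcases min_choice (v.ord a) (v.ord b) with h7 | h7
  · rwa [h7] at h6
  · rw [h7] at h6
    have h8 := dvd_add h4 h6
    rwa [sub_add_cancel] at h8

end Val

end Fermat.Agent.Lf
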