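import Mathlib
import Fermat.Agent.Lf.Core

/-!
The core of the lifting theorem: sections over the complete ring.
-/

set_option autoImplicit false
set_option linter.unusedSectionVars false

noncomputable section

namespace Fermat.Agent.Lf

open AlgebraicCurve IsDedekindDomain IntermediateField WithZero Module Fermat.Agent.FunField
open Polynomial (aeval)
open Fermat.Agent.LG Fermat.Agent.ModFun Fermat.Agent.Geo Fermat.Agent.Flat
open Fermat.Agent.ESCore (HauptFn haupt2 haupt3 ιC)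
open IsLocalRing ModularCurve

/-- The field of algebraic numbers. -/
local notation "Qb" => AlgebraicClosure ℚ

section Big

variable {A : ValuationSubring Qb} {q : ℕ} {p : ℕ} [Fact p.Prime] {κ : ℤ}
  {N : ℕ} [NeZero N] {H : HauptFn p κ} {hp : p ∣ N}

theorem X_mem_L0 (c i : ℕ) : (PowerSeries.X : PowerSeries (O0 A)) ^ (c * i) ∈ L0 A H hp c i := by
  refine ⟨1, ?_, ?_⟩
  · rw [map_pow, PowerSeries.map_X, map_pow]
    change (1 : LaurentSeries (KI A)) * _ = _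
    rw [one_mul, xs]
  · rw [map_one, mem_L' one_ne_zero]
    intro v
    rw [v.ord_one, Finsupp.smul_apply, Finsupp.smul_apply, pol_apply ((sep_tF H hp).finOrd _)]
    have : 0 ≤ i • (c • max 0 (-v.ord (tF H hp))) :=
      nsmul_nonneg (nsmul_nonneg (le_max_left _ _) _) _
    omega

theorem tU_mem_L0 (c i : ℕ) : tU (O0 A) p κ ^ (c * i) ∈ L0 A H hp c i := by
  let ι₀ : KI A →+* ℂ := ιC.comp (algebraMap (KI A) Qb)
  refine ⟨⟨tS (KI A) p κ, tS_mem_F0 H ι₀ hp⟩ ^ (c * i), ?_, ?_⟩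
  · rw [map_pow, map_tU, map_pow, ← tS_mul_xs, mul_pow]
    rfl
  · rw [map_pow]
    have : liftF (algebraMap (KI A) Qb) N ⟨tS (KI A) p κ, tS_mem_F0 H ι₀ hp⟩ = tF H hp := by
      apply Subtype.ext
      rw [coe_liftF]
      exact coeffMap_tS _ p κ
    rw [this, smul_smul, mul_comm i c]
    exact pow_mem_L (mem_L_pol ((sep_tF H hp).finOrd _)) _

variable (P : CD.BigPlace A q) {d : ℕ} {e : Fin d → F0 Qb N}
  (h : Pre (residue A) (W0 A N) (ρ0 A N) (tF H hp) (tS (ResidueField A) p κ) e)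

/-- the system -/
theorem lred (hq : q.Prime) (hA : A.LiesOverPrime q) {M : ℕ}
    (hM : ∀ n ≥ M, ∀ zb ∈ riemannRochSpace (n • pol (K := ResidueField A) h.tbb),
        ∃ z : W0 A N, (z : F0 Qb N) ∈ riemannRochSpace (n • pol (K := Qb) (tF H hp)) ∧
          h.ρb z = zb ∧ ∃ zL : F0 (KI A) N, (z : F0 Qb N) = liftF (algebraMap (KI A) Qb) N zL ∧
            ∃ P : PowerSeries (A.comap (algebraMap (KI A) Qb)),
              (tS (KI A) p κ)⁻¹ ^ n * (zL : LaurentSeries (KI A)) =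
                toL (A.comap (algebraMap (KI A) Qb)) (KI A) (HahnSeries.ofPowerSeries ℤ _ P))
    {c : ℕ} (hcM : M ≤ c) :
    LRed (PowerSeries.C (P.inc ((q : ℕ) : O0 A))) (fun i => ext P.inc (L0 A H hp c i))
      (PowerSeries.map P.red)
      (fun i => ((Lv (c • pol (K := ResidueField A) h.tbb) c i :
        Submodule (ResidueField A) (PowerSeries (ResidueField A))) :
        Set (PowerSeries (ResidueField A)))) := by
  have hac : IsAlgClosed (ResidueField A) := isAlgClosed_residueA hq hA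
  have hdvr : IsDiscreteValuationRing (O0 A) := isDVR_KI hq hA
  have hcomp := P.complete
  refine (cpl P hq hA).lred (Λ := fun i => L0 A H hp c i) one_mem_L0
    (fun i j f hf g hg => mul_mem_L0 hf hg) (fun i => fg_L0 i)
    (fun i f hf => sat_L0 (cpl P hq hA).ne hf) (fun i f => ?_)
  exact red_iff h hq hA hM hcM i f

/-- the open set -/
theorem exists_cop (hq : q.Prime) (hA : A.LiesOverPrime q) {M : ℕ}
    (hM : ∀ n ≥ M, ∀ zb ∈ riemannRochSpace (n • pol (K := ResidueField A) h.tbb),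
        ∃ z : W0 A N, (z : F0 Qb N) ∈ riemannRochSpace (n • pol (K := Qb) (tF H hp)) ∧
          h.ρb z = zb ∧ ∃ zL : F0 (KI A) N, (z : F0 Qb N) = liftF (algebraMap (KI A) Qb) N zL ∧
            ∃ P : PowerSeries (A.comap (algebraMap (KI A) Qb)),
              (tS (KI A) p κ)⁻¹ ^ n * (zL : LaurentSeries (KI A)) =
                toL (A.comap (algebraMap (KI A) Qb)) (KI A) (HahnSeries.ofPowerSeries ℤ _ P))
    {c : ℕ} (hcM : M ≤ c) {m d₁ k₀ : ℕ} (hm : 0 < m) (hqm : ¬ q ∣ m) (hmd : m ∣ d₁)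
    {mb₁ mb₂ : PowerSeries (ResidueField A)}
    (hB : PenB (Lv (c • pol (K := ResidueField A) h.tbb) c) m d₁ k₀ mb₁ mb₂) :
    ∃ (w : PowerSeries P.O) (z : F0 P.Ω N), PowerSeries.map P.red w = mb₁ ∧
      HahnSeries.ofPowerSeries ℤ P.Ω (PowerSeries.map P.j w) ^ m = z * xs P.Ω ^ (c * d₁) ∧
      ∀ v : Place P.Ω (F0 P.Ω N), (m : ℤ) ∣ v.ord z := by
  have hcomp := P.complete
  have hcomp' : IsAdicComplete (Ideal.span {PowerSeries.C (P.inc ((q : ℕ) : O0 A))})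
    (PowerSeries P.O) := CD.isAdicComplete_ps
  have hmu : IsUnit ((m : ℕ) : P.O) := by
    have := (CD.isUnit_natCast_KI hq hA hqm).map P.inc
    rwa [map_natCast] at this
  have D := lred P h hq hA hM hcM
  obtain ⟨w₁, w₂, hw₁, hw₂, hw⟩ := D.exists_lift hmu hm hB.pair
  have hw₁' : PowerSeries.map P.red w₁ = mb₁ := hw₁
  have hw₂' : PowerSeries.map P.red w₂ = mb₂ := hw₂
  have ha := hw m le_rfl
  rw [Nat.sub_self, pow_zero, mul_one] at ha
  have hb := hw 0 (Nat.zero_le _)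
  rw [Nat.sub_zero, pow_zero, one_mul] at hb
  have he := hw 1 hm
  rw [pow_one] at he
  have hcop : ∀ f ∈ ext P.inc (L0 A H hp c (k₀ + d₁)), ∃ g ∈ ext P.inc (L0 A H hp c k₀),
      ∃ g' ∈ ext P.inc (L0 A H hp c k₀), f = w₁ ^ m * g + w₂ ^ m * g' := by
    intro f hf
    refine D.cop ha hb (fun f hf => ?_) hf
    obtain ⟨a, ha, b, hb, hab⟩ := hB.cop k₀ le_rfl f hf
    refine ⟨a, ha, b, hb, ?_⟩
    rw [hab, map_pow, map_pow, hw₁', hw₂']
    ring
  -- the functions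
  obtain ⟨z₁, hz₁, hz₁'⟩ := exists_of_ext P ha
  obtain ⟨z₂, hz₂, hz₂'⟩ := exists_of_ext P hb
  obtain ⟨z₃, hz₃, hz₃'⟩ := exists_of_ext P he
  rw [map_pow, map_pow] at hz₁' hz₂'
  rw [map_mul, map_pow, map_mul, map_pow] at hz₃'
  set W₁ := HahnSeries.ofPowerSeries ℤ P.Ω (PowerSeries.map P.j w₁) with hW₁
  set W₂ := HahnSeries.ofPowerSeries ℤ P.Ω (PowerSeries.map P.j w₂) with hW₂
  have hjmap : ∀ f : PowerSeries P.O, HahnSeries.ofPowerSeries ℤ P.Ω (PowerSeries.map P.j f) = 0 →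
      f = 0 := by
    intro f hf
    have h1 : PowerSeries.map P.j f = 0 :=
      HahnSeries.ofPowerSeries_injective (by rw [hf, map_zero])
    ext n
    have h2 := congrArg (PowerSeries.coeff n) h1
    rw [PowerSeries.coeff_map, map_zero] at h2
    rw [map_zero]
    exact (map_eq_zero_iff P.j P.j_inj).mp h2
  have hW₁0 : W₁ ≠ 0 := fun h0 => by
    have h1 := hjmap _ h0
    rw [h1, map_zero] at hw₁'
    exact hB.u₁.ne_zero hw₁'.symm
  have hW₂0 : W₂ ≠ 0 := fun h0 => by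
    have h1 := hjmap _ h0
    rw [h1, map_zero] at hw₂'
    exact hB.u₂.ne_zero hw₂'.symm
  have hx : ∀ n : ℕ, xs P.Ω ^ n ≠ 0 := fun n => pow_ne_zero _ xs_ne
  have hz₁0 : z₁ ≠ 0 := by
    rintro rfl
    have : (0 : LaurentSeries P.Ω) * xs P.Ω ^ (c * d₁) = W₁ ^ m := hz₁'
    rw [zero_mul] at this
    exact pow_ne_zero m hW₁0 this.symm
  have hz₂0 : z₂ ≠ 0 := by
    rintro rfl
    have : (0 : LaurentSeries P.Ω) * xs P.Ω ^ (c * d₁) = W₂ ^ m := hz₂'
    rw [zero_mul] at this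
    exact pow_ne_zero m hW₂0 this.symm
  have ht := (sep_tΩ P.ι H hp).finOrd (tΩ P.ι H hp)
  have ht0 : tΩ P.ι H hp ≠ 0 := (sep_tΩ P.ι H hp).ne_zero
  -- the relations
  have hrel : ∀ (f : PowerSeries P.O) (s : F0 P.Ω N), f ∈ ext P.inc (L0 A H hp c (k₀ + d₁)) →
      (s : LaurentSeries P.Ω) * xs P.Ω ^ (c * (k₀ + d₁)) =
        HahnSeries.ofPowerSeries ℤ P.Ω (PowerSeries.map P.j f) →
      ∃ g ∈ riemannRochSpace (k₀ • (c • pol (K := P.Ω) (tΩ P.ι H hp))),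
        ∃ g' ∈ riemannRochSpace (k₀ • (c • pol (K := P.Ω) (tΩ P.ι H hp))),
          s = z₁ * g + z₂ * g' := by
    intro f s hf hs
    obtain ⟨g, hg, g', hg', hfg⟩ := hcop f hf
    obtain ⟨G, hG, hG'⟩ := exists_of_ext P hg
    obtain ⟨G', hG₁, hG₁'⟩ := exists_of_ext P hg'
    refine ⟨G, hG, G', hG₁, ?_⟩
    apply Subtype.ext
    apply mul_right_cancel₀ (hx (c * (k₀ + d₁)))
    rw [hs, hfg, map_add, map_mul, map_mul, map_pow, map_pow, map_add, map_mul, map_mul, map_pow,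
      map_pow, ← hW₁, ← hW₂, ← hG', ← hG₁', ← hz₁', ← hz₂']
    change _ = ((z₁ : LaurentSeries P.Ω) * G + z₂ * G') * _
    ring
  refine ⟨w₁, z₁, hw₁', hz₁'.symm, ?_⟩
  refine dvd_ord ht ht0 hz₁0 hz₂0 (c := c) (d := d₁) (k₀ := k₀) hz₁ hz₂ ?_ ?_ hm hmd
    (e := z₃) ?_
  · refine hrel (PowerSeries.X ^ (c * (k₀ + d₁))) 1 ?_ ?_
    · exact Submodule.subset_span ⟨PowerSeries.X ^ (c * (k₀ + d₁)), X_mem_L0 _ _, by
        rw [map_pow, PowerSeries.map_X]⟩
    · rw [map_pow, PowerSeries.map_X, map_pow]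
      change (1 : LaurentSeries P.Ω) * _ = _
      rw [one_mul, xs]
  · refine hrel (tU P.O p κ ^ (c * (k₀ + d₁))) _ ?_ ?_
    · exact Submodule.subset_span ⟨tU (O0 A) p κ ^ (c * (k₀ + d₁)), tU_mem_L0 _ _, by
        rw [map_pow, map_tU]⟩
    · rw [map_pow, map_tU, map_pow, ← tS_mul_xs, mul_pow]
      rfl
  · apply Subtype.ext
    apply mul_right_cancel₀ (hx (c * d₁ * m))
    change (z₃ : LaurentSeries P.Ω) ^ m * _ = (z₁ : LaurentSeries P.Ω) * z₂ ^ (m - 1) * _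
    have e1 : xs P.Ω ^ (c * d₁ * m) = xs P.Ω ^ (c * d₁) * (xs P.Ω ^ (c * d₁)) ^ (m - 1) := by
      rw [← pow_succ', Nat.sub_add_cancel hm, ← pow_mul]
    have e2 : (z₃ : LaurentSeries P.Ω) ^ m * xs P.Ω ^ (c * d₁ * m) =
        (z₃ * xs P.Ω ^ (c * d₁)) ^ m := by
      rw [mul_pow, ← pow_mul]
    rw [e2, e1, hz₃']
    have e3 : (z₁ : LaurentSeries P.Ω) * z₂ ^ (m - 1) *
        (xs P.Ω ^ (c * d₁) * (xs P.Ω ^ (c * d₁)) ^ (m - 1)) =
        (z₁ * xs P.Ω ^ (c * d₁)) * (z₂ * xs P.Ω ^ (c * d₁)) ^ (m - 1) := by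
      rw [mul_pow]
      ring
    rw [e3, hz₁', hz₂', mul_pow, ← pow_mul, ← pow_mul, mul_comm (m - 1) m]

/-- **Sections over the complete ring.** -/
theorem exists_sec (hq : q.Prime) (hA : A.LiesOverPrime q) (hqN : ¬ q ∣ N)
    {S : Set ℤ} {k : ℕ} {Q : Polynomial ℤ} (hH : HautData H S k Q)
    (hS : ∀ c ∈ S, ∀ c' ∈ S, c ≠ c' → IsUnit ((c - c' : ℤ) : A.comap (algebraMap (KI A) Qb)))
    {m : ℕ} (hm : 0 < m) (hqm : ¬ q ∣ m) {yb : LaurentSeries (ResidueField A)} (hyb : yb ≠ 0)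
    (hym : yb ^ m ∈ h.Fb)
    (hdvd : ∀ v : Place (ResidueField A) h.Fb, (m : ℤ) ∣ v.ord (⟨yb ^ m, hym⟩ : h.Fb)) :
    ∃ (w : PowerSeries P.O) (n : ℕ) (z : F0 P.Ω N) (f : h.Fb), f ≠ 0 ∧
      HahnSeries.ofPowerSeries ℤ P.Ω (PowerSeries.map P.j w) ^ m =
        (z : LaurentSeries P.Ω) * xs P.Ω ^ (m * n) ∧
      (∀ v : Place P.Ω (F0 P.Ω N), (m : ℤ) ∣ v.ord z) ∧ IsUnit (PowerSeries.map P.red w) ∧
      (f : LaurentSeries (ResidueField A)) * yb * xs (ResidueField A) ^ n =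
        HahnSeries.ofPowerSeries ℤ (ResidueField A) (PowerSeries.map P.red w) := by
  have hac : IsAlgClosed (ResidueField A) := isAlgClosed_residueA hq hA
  obtain ⟨M, hM⟩ := exists_lift_level hq hA hqN hH hS h
  obtain ⟨g, C, hC⟩ := (sep_tbb h).exists_crv
  obtain ⟨v₀, hv₀⟩ := exists_inf h
  set c : ℕ := M + 1 with hc
  set E : Divisor (ResidueField A) h.Fb := c • pol (K := ResidueField A) h.tbb with hE
  have hE0 : 0 < dg E := by
    have h1 : 0 < dg (pol (K := ResidueField A) h.tbb) := by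
      have := (sep_tbb h).fd
      rw [(sep_tbb h).dg_pol]
      exact_mod_cast finrank_pos
    rw [hE, map_nsmul]
    exact nsmul_pos h1 (Nat.succ_ne_zero _)
  have hEv : E v₀ = c := by
    rw [hE, Finsupp.smul_apply, pol_apply ((sep_tbb h).finOrd _), hv₀ _ h.red.tb_ne]
    have : ((h.tbb : h.Fb) : LaurentSeries (ResidueField A)) = tS (ResidueField A) p κ := rfl
    rw [this, order_tS]
    simp
  set n : ℕ := C.toNat + 1 with hn
  have hnC : C + 1 ≤ n := by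
    have := Int.self_le_toNat C
    push_cast [hn]
    omega
  obtain ⟨f₁, f₂, mb₁, mb₂, hf₁, -, hmb₁, -, hB⟩ := exists_penB hC hE0 hv₀ hEv hm hyb hym hdvd
    (Nat.succ_pos _) hnC
  obtain ⟨w, z, hw, hwz, hv⟩ := exists_cop P h hq hA hM (c := c) (Nat.le_succ M) hm hqm
    (dvd_mul_right m n) hB
  refine ⟨w, c * n, z, f₁, hf₁, ?_, hv, ?_, ?_⟩
  · rw [hwz]
    have e1 : c * (m * n) = m * (c * n) := by ring
    rw [e1]
  · rw [hw]
    exact hB.u₁
  · rw [hw]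
    exact hmb₁

end Big

end Fermat.Agent.Lf
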