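import Mathlib
import Fermat.Agent.Lf.Core2

/-!
The field of reductions, independently of a presentation.
-/

set_option autoImplicit false
set_option linter.unusedSectionVars false

noncomputable section

namespace Fermat.Agent.Lf

open AlgebraicCurve IsDedekindDomain IntermediateField WithZero Module Fermat.Agent.FunField
open Polynomial (aeval)
open Fermat.Agent.LG Fermat.Agent.ModFun Fermat.Agent.Geo Fermat.Agent.Flat
open Fermat.Agent.ESCore (HauptFn haupt2 haupt3 ιC XG)
open IsLocalRing ModularCurve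

/-- The field of algebraic numbers. -/
local notation "Qb" => AlgebraicClosure ℚ

section

variable (A : ValuationSubring Qb) (N : ℕ) [NeZero N]

/-- The function field of the reduction. -/
def FbK : IntermediateField (ResidueField A) (LaurentSeries (ResidueField A)) :=
  IntermediateField.adjoin (ResidueField A) (Set.range (ρ0 A N))

variable {A N} {q : ℕ} {p : ℕ} [Fact p.Prime] {κ : ℤ} {H : HauptFn p κ} {hp : p ∣ N}
  {d : ℕ} {e : Fin d → F0 Qb N}

theorem Fb_eq (h : Pre (residue A) (W0 A N) (ρ0 A N) (tF H hp) (tS (ResidueField A) p κ) e) :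
    h.Fb = FbK A N := by
  apply le_antisymm
  · rintro _ ⟨z, rfl⟩
    exact IntermediateField.subset_adjoin _ _ ⟨z, rfl⟩
  · rw [FbK, IntermediateField.adjoin_le_iff]
    rintro _ ⟨z, rfl⟩
    exact ⟨z, rfl⟩

theorem mem_FbK_iff
    (h : Pre (residue A) (W0 A N) (ρ0 A N) (tF H hp) (tS (ResidueField A) p κ) e)
    {x : LaurentSeries (ResidueField A)} : x ∈ FbK A N ↔ ∃ z : W0 A N, ρ0 A N z = x := by
  rw [← Fb_eq h]
  exact Iff.rfl

/-- The presentation. -/
theorem exists_pre (hq : q.Prime) (hA : A.LiesOverPrime q) (hqN : ¬ q ∣ N) (hp : p ∣ N)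
    {S : Set ℤ} {k : ℕ} {Q : Polynomial ℤ} (hH : HautData H S k Q)
    (hS : ∀ c ∈ S, ∀ c' ∈ S, c ≠ c' → IsUnit ((c - c' : ℤ) : A.comap (algebraMap (KI A) Qb))) :
    ∃ (d : ℕ) (e : Fin d → F0 Qb N),
      Pre (residue A) (W0 A N) (ρ0 A N) (tF H hp) (tS (ResidueField A) p κ) e := by
  obtain ⟨d, e, h, -⟩ := lift_of_level2 hq hA hqN hp hH hS
  exact ⟨d, e, h⟩

end

end Fermat.Agent.Lf
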