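import Mathlib
import Fermat.Agent.Lf.Fb
import Fermat.Agent.LG.KX1

/-!
Lifting.
-/

set_option autoImplicit false
set_option linter.unusedSectionVars false

noncomputable section

namespace Fermat.Agent.Lf

open AlgebraicCurve IsDedekindDomain IntermediateField WithZero Module Fermat.Agent.FunField
open Polynomial (aeval)
open Fermat.Agent.LG Fermat.Agent.ModFun Fermat.Agent.Geo Fermat.Agent.Flat
open Fermat.Agent.ESCore (HauptFn haupt2 haupt3 ιC XG)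
open IsLocalRing ModularCurve

/-- The field of algebraic numbers. -/
local notation "Qb" => AlgebraicClosure ℚ

variable {A : ValuationSubring Qb} {q : ℕ} {p : ℕ} [Fact p.Prime] {κ : ℤ}
  {N : ℕ} [NeZero N] {H : HauptFn p κ} {hp : p ∣ N}
  {d : ℕ} {e : Fin d → F0 Qb N}
  (h : Pre (residue A) (W0 A N) (ρ0 A N) (tF H hp) (tS (ResidueField A) p κ) e)

theorem lift_of_ld (P : CD.BigPlace A q) {m : ℕ}
    (hLD : ∀ {w : PowerSeries P.O} {n : ℕ} {z : F0 P.Ω N},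
      HahnSeries.ofPowerSeries ℤ _ (PowerSeries.map P.j w) ^ m =
        (z : LaurentSeries P.Ω) * Lf.xs P.Ω ^ (m * n) →
      (∀ v : Place P.Ω (F0 P.Ω N), (m : ℤ) ∣ v.ord z) → IsUnit (PowerSeries.map P.red w) →
      ∃ χ ∈ XG N m, ∃ y : LaurentSeries Qb, y ≠ 0 ∧ XSer ιC N χ y ∧ ∃ hy : y ∈ gA A,
        ∃ f ∈ h.Fb, f ≠ 0 ∧ gAR ⟨y, hy⟩ * f * Lf.xs (ResidueField A) ^ n =
          HahnSeries.ofPowerSeries ℤ _ (PowerSeries.map P.red w))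
    (hq : q.Prime) (hA : A.LiesOverPrime q) (hqN : ¬ q ∣ N)
    {S : Set ℤ} {k : ℕ} {Q : Polynomial ℤ} (hH : HautData H S k Q)
    (hS : ∀ c ∈ S, ∀ c' ∈ S, c ≠ c' → IsUnit ((c - c' : ℤ) : A.comap (algebraMap (KI A) Qb)))
    (hm : 0 < m) (hqm : ¬ q ∣ m) {yb : LaurentSeries (ResidueField A)} (hyb : yb ≠ 0)
    (hym : yb ^ m ∈ h.Fb)
    (hdvd : ∀ v : Place (ResidueField A) h.Fb, (m : ℤ) ∣ v.ord (⟨yb ^ m, hym⟩ : h.Fb)) :
    ∃ χ ∈ XG N m, ∃ y : LaurentSeries Qb, y ≠ 0 ∧ XSer ιC N χ y ∧ ∃ hy : y ∈ gA A,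
        ∃ f ∈ h.Fb, f ≠ 0 ∧ gAR ⟨y, hy⟩ = f * yb := by
  obtain ⟨w, n, z, f₁, hf₁, hwz, hv, hu, hf₁w⟩ :=
    exists_sec P h hq hA hqN hH hS hm hqm hyb hym hdvd
  obtain ⟨χ, hχ, y, hy0, hy, hyA, f, hf, hf0, hfw⟩ := hLD hwz hv hu
  refine ⟨χ, hχ, y, hy0, hy, hyA, f₁ / f, div_mem f₁.2 hf, div_ne_zero (fun h0 => hf₁
    (Subtype.ext h0)) hf0, ?_⟩
  rw [← hf₁w] at hfw
  have h1 := mul_right_cancel₀ (pow_ne_zero n xs_ne) hfw
  rw [div_mul_eq_mul_div, eq_div_iff hf0, h1]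

end Fermat.Agent.Lf
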