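import Mathlib
import Fermat.Agent.Lf.Main0
import Fermat.Agent.CD.LdD

/-!
# Lifting of torsion line bundles from the reduction of `X₀(N)`
-/

set_option autoImplicit false
set_option linter.unusedSectionVars false

noncomputable section

namespace Fermat.Agent.Lf

open AlgebraicCurve IsDedekindDomain IntermediateField WithZero Module Fermat.Agent.FunField
open Polynomial (aeval)
open Fermat.Agent.LG Fermat.Agent.ModFun Fermat.Agent.Geo Fermat.Agent.Flat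
open Fermat.Agent.ESCore (HauptFn haupt2 haupt3 ιC XG)
open IsLocalRing ModularCurve

/-- The field of algebraic numbers. -/
local notation "Qb" => AlgebraicClosure ℚ

section

variable {A : ValuationSubring Qb} {q : ℕ} {p : ℕ} [Fact p.Prime] {κ : ℤ}
  {N : ℕ} [NeZero N]

/-- **Lifting** of functions on the reduction whose divisor is divisible by `m`. -/
theorem lift_pre {H : HauptFn p κ} {hp : p ∣ N} {d : ℕ} {e : Fin d → F0 Qb N}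
    (h : Pre (residue A) (W0 A N) (ρ0 A N) (tF H hp) (tS (ResidueField A) p κ) e)
    (hq : q.Prime) (hA : A.LiesOverPrime q) (hqN : ¬ q ∣ N)
    {S : Set ℤ} {k : ℕ} {Q : Polynomial ℤ} (hH : HautData H S k Q)
    (hS : ∀ c ∈ S, ∀ c' ∈ S, c ≠ c' → IsUnit ((c - c' : ℤ) : A.comap (algebraMap (KI A) Qb)))
    {m : ℕ} (hm : 0 < m) (hqm : ¬ q ∣ m) {yb : LaurentSeries (ResidueField A)} (hyb : yb ≠ 0)
    (hym : yb ^ m ∈ h.Fb)
    (hdvd : ∀ v : Place (ResidueField A) h.Fb, (m : ℤ) ∣ v.ord (⟨yb ^ m, hym⟩ : h.Fb)) :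
    ∃ χ ∈ XG N m, ∃ y : LaurentSeries Qb, y ≠ 0 ∧ XSer ιC N χ y ∧ ∃ hy : y ∈ gA A,
        ∃ f ∈ h.Fb, f ≠ 0 ∧ gAR ⟨y, hy⟩ = f * yb := by
  obtain ⟨P⟩ := CD.exists_bigPlace hq hA
  exact lift_of_ld h P (fun hz hdvd hu => CD.ld_core P hq hA h hm hz hdvd hu) hq hA hqN hH hS hm
    hqm hyb hym hdvd

/-- **Lifting** of functions on the reduction whose divisor is divisible by `m`. -/
theorem lift_main {H : HauptFn p κ} (hp : p ∣ N)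
    (hq : q.Prime) (hA : A.LiesOverPrime q) (hqN : ¬ q ∣ N)
    {S : Set ℤ} {k : ℕ} {Q : Polynomial ℤ} (hH : HautData H S k Q)
    (hS : ∀ c ∈ S, ∀ c' ∈ S, c ≠ c' → IsUnit ((c - c' : ℤ) : A.comap (algebraMap (KI A) Qb)))
    {m : ℕ} (hm : 0 < m) (hqm : ¬ q ∣ m) {yb : LaurentSeries (ResidueField A)} (hyb : yb ≠ 0)
    (hym : yb ^ m ∈ FbK A N)
    (hdvd : ∀ v : Place (ResidueField A) (FbK A N), (m : ℤ) ∣ v.ord (⟨yb ^ m, hym⟩ : FbK A N)) :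
    ∃ χ ∈ XG N m, ∃ y : LaurentSeries Qb, y ≠ 0 ∧ XSer ιC N χ y ∧ ∃ hy : y ∈ gA A,
        ∃ f ∈ FbK A N, f ≠ 0 ∧ gAR ⟨y, hy⟩ = f * yb := by
  obtain ⟨d, e, h⟩ := exists_pre (H := H) hq hA hqN hp hH hS
  have key : ∀ F : IntermediateField (ResidueField A) (LaurentSeries (ResidueField A)),
      h.Fb = F → ∀ hym : yb ^ m ∈ F,
      (∀ v : Place (ResidueField A) F, (m : ℤ) ∣ v.ord (⟨yb ^ m, hym⟩ : F)) →
      ∃ χ ∈ XG N m, ∃ y : LaurentSeries Qb, y ≠ 0 ∧ XSer ιC N χ y ∧ ∃ hy : y ∈ gA A,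
        ∃ f ∈ F, f ≠ 0 ∧ gAR ⟨y, hy⟩ = f * yb := by
    rintro _ rfl hym hdvd
    exact lift_pre h hq hA hqN hH hS hm hqm hyb hym hdvd
  exact key _ (Fb_eq h) hym hdvd

theorem isUnit_pow_of_ne (hq : q.Prime) (hA : A.LiesOverPrime q) {r : ℕ} (hr : r.Prime)
    (hqr : q ≠ r) (n : ℕ) : IsUnit (((r : ℤ) ^ n : ℤ) : A.comap (algebraMap (KI A) Qb)) := by
  have h1 := CD.isUnit_natCast_KI hq hA (m := r ^ n) (fun h => by
    have h2 := hq.dvd_of_dvd_pow h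
    exact hqr ((Nat.prime_dvd_prime_iff_eq hq hr).mp h2))
  have h2 : (((r : ℤ) ^ n : ℤ) : A.comap (algebraMap (KI A) Qb)) =
      ((r ^ n : ℕ) : A.comap (algebraMap (KI A) Qb)) := by push_cast; rfl
  rw [h2]
  exact h1

theorem haut2_isUnit (hq : q.Prime) (hA : A.LiesOverPrime q) (hq2 : q ≠ 2) :
    ∀ c ∈ ({0, -64} : Set ℤ), ∀ c' ∈ ({0, -64} : Set ℤ), c ≠ c' →
      IsUnit ((c - c' : ℤ) : A.comap (algebraMap (KI A) Qb)) := by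
  have h1 := isUnit_pow_of_ne hq hA Nat.prime_two hq2 6
  rintro c (rfl | rfl) c' (rfl | rfl) hcc
  · exact absurd rfl hcc
  · have e : (0 - -64 : ℤ) = ((2 : ℕ) : ℤ) ^ 6 := by norm_num
    rw [e]; exact h1
  · have e : (-64 - 0 : ℤ) = -((2 : ℕ) : ℤ) ^ 6 := by norm_num
    rw [e, Int.cast_neg]; exact h1.neg
  · exact absurd rfl hcc

theorem haut3_isUnit (hq : q.Prime) (hA : A.LiesOverPrime q) (hq3 : q ≠ 3) :
    ∀ c ∈ ({0, -27} : Set ℤ), ∀ c' ∈ ({0, -27} : Set ℤ), c ≠ c' →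
      IsUnit ((c - c' : ℤ) : A.comap (algebraMap (KI A) Qb)) := by
  have h1 := isUnit_pow_of_ne hq hA Nat.prime_three hq3 3
  rintro c (rfl | rfl) c' (rfl | rfl) hcc
  · exact absurd rfl hcc
  · have e : (0 - -27 : ℤ) = ((3 : ℕ) : ℤ) ^ 3 := by norm_num
    rw [e]; exact h1
  · have e : (-27 - 0 : ℤ) = -((3 : ℕ) : ℤ) ^ 3 := by norm_num
    rw [e, Int.cast_neg]; exact h1.neg
  · exact absurd rfl hcc

/-- Lifting, even level. -/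
theorem lift2 (hN : 2 ∣ N) (hq : q.Prime) (hA : A.LiesOverPrime q) (hqN : ¬ q ∣ N)
    {m : ℕ} (hm : 0 < m) (hqm : ¬ q ∣ m) {yb : LaurentSeries (ResidueField A)} (hyb : yb ≠ 0)
    (hym : yb ^ m ∈ FbK A N)
    (hdvd : ∀ v : Place (ResidueField A) (FbK A N), (m : ℤ) ∣ v.ord (⟨yb ^ m, hym⟩ : FbK A N)) :
    ∃ χ ∈ XG N m, ∃ y : LaurentSeries Qb, y ≠ 0 ∧ XSer ιC N χ y ∧ ∃ hy : y ∈ gA A,
        ∃ f ∈ FbK A N, f ≠ 0 ∧ gAR ⟨y, hy⟩ = f * yb := by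
  have : Fact (Nat.Prime 2) := ⟨Nat.prime_two⟩
  exact lift_main hN hq hA hqN haut2 (haut2_isUnit hq hA fun h => hqN (h ▸ hN)) hm hqm hyb hym hdvd

/-- Lifting, level divisible by three. -/
theorem lift3 (hN : 3 ∣ N) (hq : q.Prime) (hA : A.LiesOverPrime q) (hqN : ¬ q ∣ N)
    {m : ℕ} (hm : 0 < m) (hqm : ¬ q ∣ m) {yb : LaurentSeries (ResidueField A)} (hyb : yb ≠ 0)
    (hym : yb ^ m ∈ FbK A N)
    (hdvd : ∀ v : Place (ResidueField A) (FbK A N), (m : ℤ) ∣ v.ord (⟨yb ^ m, hym⟩ : FbK A N)) :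
    ∃ χ ∈ XG N m, ∃ y : LaurentSeries Qb, y ≠ 0 ∧ XSer ιC N χ y ∧ ∃ hy : y ∈ gA A,
        ∃ f ∈ FbK A N, f ≠ 0 ∧ gAR ⟨y, hy⟩ = f * yb := by
  have : Fact (Nat.Prime 3) := ⟨Nat.prime_three⟩
  exact lift_main hN hq hA hqN haut3 (haut3_isUnit hq hA fun h => hqN (h ▸ hN)) hm hqm hyb hym hdvd

end

end Fermat.Agent.Lf
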